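/-
Programme MS (S12), area LOC (helper5): **the two-stable-lines lemma.**

`V` a module over `ZMod p` with `p²` elements, acted on by a group `G`; `C ⊆ V` a line.  If `σ` fixes `C`
pointwise, acts on `V / C` through the scalar `c` (`σ x - c x ∈ C`), and stabilises a second line `L ≠ C`, then
`σ` acts on `L` through `c`; in particular `σ = 1` on `V` when `c = 1`.  This replaces all computations of
inertia on the sub-quotients `M_k = p⁻¹ K_k / K_k` (fields `unramified_outside` and `locally_split` of
`ExtCitation.IsAdmissibleExtension`): a second line stable under the decomposition group is enough.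

* `isCompl_of_card` : two distinct lines of a plane are complementary;
* `smul_eq_smul_of_mem` : `σ x = c x` on the second stable line;
* `smul_eq_of_two_lines` : `σ = 1` on `V` if moreover `c = 1`.
-/
import Mathlib

set_option autoImplicit false
set_option linter.unusedSectionVars false
set_option linter.style.longLine false

namespace Fermat.Agent.MS.LOC.TwoLines5

variable {p : ℕ} [Fact p.Prime]
variable {V : Type*} [AddCommGroup V] [Module (ZMod p) V]

/-- a submodule with `p` elements of a `ZMod p`-module has `finrank = 1`. -/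
theorem finrank_eq_one_of_card (C : Submodule (ZMod p) V) (hC : Nat.card C = p) :
    Module.finrank (ZMod p) C = 1 := by
  have hp : p.Prime := Fact.out
  have hfin : Finite C := Nat.finite_of_card_ne_zero (by rw [hC]; exact hp.ne_zero)
  have h := Module.natCard_eq_pow_finrank (K := ZMod p) (V := C)
  rw [hC, Nat.card_zmod] at h
  have h1 : p ^ 1 = p ^ Module.finrank (ZMod p) C := by rw [pow_one]; exact h
  exact (Nat.pow_right_injective hp.two_le h1).symm

/-- a `ZMod p`-module with `p²` elements has `finrank = 2`. -/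
theorem finrank_eq_two_of_card (hV : Nat.card V = p ^ 2) : Module.finrank (ZMod p) V = 2 := by
  have hp : p.Prime := Fact.out
  have hfin : Finite V := Nat.finite_of_card_ne_zero (by rw [hV]; exact pow_ne_zero 2 hp.ne_zero)
  have h := Module.natCard_eq_pow_finrank (K := ZMod p) (V := V)
  rw [hV, Nat.card_zmod] at h
  exact (Nat.pow_right_injective hp.two_le h).symm

/-- **two distinct lines of a plane are complementary.** -/
theorem isCompl_of_card (hV : Nat.card V = p ^ 2) (C L : Submodule (ZMod p) V)
    (hC : Nat.card C = p) (hL : Nat.card L = p) (hne : C ≠ L) : IsCompl C L := by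
  have hp : p.Prime := Fact.out
  have hfinV : Finite V := Nat.finite_of_card_ne_zero (by rw [hV]; exact pow_ne_zero 2 hp.ne_zero)
  have hfd : FiniteDimensional (ZMod p) V := Module.Finite.of_finite
  have h2 := finrank_eq_two_of_card (p := p) hV
  have hC1 := finrank_eq_one_of_card C hC
  have hL1 := finrank_eq_one_of_card L hL
  -- `C ⊓ L = ⊥`
  have hinf : C ⊓ L = ⊥ := by
    by_contra hbot
    have hpos : 0 < Module.finrank (ZMod p) ↥(C ⊓ L) := by
      rw [Module.finrank_pos_iff_exists_ne_zero]
      obtain ⟨x, hx, hx0⟩ := (Submodule.ne_bot_iff _).mp hbot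
      exact ⟨⟨x, hx⟩, fun h => hx0 (congrArg Subtype.val h)⟩
    have hleC : Module.finrank (ZMod p) ↥(C ⊓ L) ≤ Module.finrank (ZMod p) C :=
      Submodule.finrank_mono inf_le_left
    have hleL : Module.finrank (ZMod p) ↥(C ⊓ L) ≤ Module.finrank (ZMod p) L :=
      Submodule.finrank_mono inf_le_right
    have hCe : C ⊓ L = C :=
      Submodule.eq_of_le_of_finrank_eq inf_le_left (by omega)
    have hLe : C ⊓ L = L :=
      Submodule.eq_of_le_of_finrank_eq inf_le_right (by omega)
    exact hne (hCe.symm.trans hLe)
  -- `C ⊔ L = ⊤`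
  have hsup : C ⊔ L = ⊤ := by
    apply Submodule.eq_top_of_finrank_eq
    have h := Submodule.finrank_sup_add_finrank_inf_eq C L
    rw [hinf, finrank_bot, hC1, hL1] at h
    omega
  exact ⟨disjoint_iff.mpr hinf, codisjoint_iff.mpr hsup⟩

variable {G : Type*} [Group G] [DistribMulAction G V] [SMulCommClass G (ZMod p) V]

/-- on a second stable line, `σ` acts through the scalar of the quotient. -/
theorem smul_eq_smul_of_mem (C L : Submodule (ZMod p) V) (hCL : Disjoint C L) (σ : G) (c : ZMod p)
    (hL : ∀ x ∈ L, σ • x ∈ L) (hq : ∀ x : V, σ • x - c • x ∈ C) {x : V} (hx : x ∈ L) :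
    σ • x = c • x := by
  have h1 : σ • x - c • x ∈ L := L.sub_mem (hL x hx) (L.smul_mem c hx)
  have h2 : σ • x - c • x ∈ C ⊓ L := ⟨hq x, h1⟩
  rw [hCL.eq_bot, Submodule.mem_bot] at h2
  exact sub_eq_zero.mp h2

/-- **two stable lines and trivial scalar: `σ` acts trivially.** -/
theorem smul_eq_of_two_lines (C L : Submodule (ZMod p) V) (hCL : IsCompl C L) (σ : G)
    (hC : ∀ x ∈ C, σ • x = x) (hL : ∀ x ∈ L, σ • x ∈ L) (hq : ∀ x : V, σ • x - x ∈ C) (x : V) :
    σ • x = x := by
  have hx : x ∈ C ⊔ L := by rw [hCL.sup_eq_top]; exact Submodule.mem_top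
  obtain ⟨y, hy, z, hz, rfl⟩ := Submodule.mem_sup.mp hx
  have hz' : σ • z = z := by
    have := smul_eq_smul_of_mem C L hCL.disjoint σ 1 hL (fun x => by rw [one_smul]; exact hq x) hz
    rwa [one_smul] at this
  rw [smul_add, hC y hy, hz']

end Fermat.Agent.MS.LOC.TwoLines5
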