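/-
Programme MS (S12), area LOC (helper5): **the `n`-torsion of an integral Weierstrass curve with multiplicative
reduction over a complete algebraically closed ultrametric field `K`, through its Tate model.**

`K` complete, algebraically closed, ultrametric, of characteristic zero; `W / K` integral with `‖c₄‖ = 1`, `Δ ≠ 0`,
`‖Δ‖ < 1`; `n` prime to `6` with `‖n‖ = 1`.

* `exists_tate_model` : `W ≃ tateCurve q` on points, compatibly with "reduces to the singular point";
* **`exists_torsion_param`** : an injective homomorphism `φ : (ZMod n)² →+ W(K)` onto the `n`-torsion with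
  `RedSingPt W (φ s) ↔ s.2 ≠ 0` (for all `s`; both sides are false at `s = 0`).
-/
import Mathlib
import Fermat.Agent.MS.TATE.ParamN3
import Fermat.Agent.MZ.MOD.TateLTFinal4

set_option autoImplicit false
set_option linter.unusedSectionVars false
set_option linter.style.longLine false
set_option linter.style.haveILetI false

namespace Fermat.Agent.MS.LOC.CanLocal5

open WeierstrassCurve WeierstrassCurve.Affine
open Fermat.Agent.MZ.MOD Fermat.Agent.MZ.MOD.RedType5 Fermat.Agent.MZ.MOD.LTTransport5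
open Fermat.Agent.MZ.MOD.TateCurve4
open Fermat.Agent.MS.TATE.TorsN3 Fermat.Agent.MS.TATE.HomN3 Fermat.Agent.MS.TATE.ParamN3
open Fermat.Agent.S05.Transport

noncomputable section

variable {K : Type*} [NormedField K] [IsUltrametricDist K] [CompleteSpace K] [CharZero K]
  [DecidableEq K] [IsAlgClosed K]

/-- **the Tate model**: an integral `W` with multiplicative reduction is isomorphic (on points, compatibly with the
reduction type) to a Tate curve. -/
theorem exists_tate_model (W : WeierstrassCurve K) (hW : IsIntegralW W) (h4 : ‖W.c₄‖ = 1)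
    (hΔ0 : W.Δ ≠ 0) (hΔ : ‖W.Δ‖ < 1) :
    ∃ q : K, q ≠ 0 ∧ ‖q‖ < 1 ∧ W.c₄ ^ 3 / W.Δ = jK q ∧
      ∃ e : (tateCurve q).toAffine.Point ≃+ W.toAffine.Point,
        ∀ P, RedSingPt W (e P) ↔ RedSingPt (tateCurve q) P := by
  have hj : 1 < ‖W.c₄ ^ 3 / W.Δ‖ := by
    rw [norm_div, norm_pow, h4, one_pow, one_div]
    exact (one_lt_inv₀ (norm_pos_iff.mpr hΔ0)).mpr hΔ
  obtain ⟨q, hq0, hq1, hjq⟩ := TateLTFinal4.hq_of_j _ hj
  have hTΔ := TateLT4.Δ_tateCurve_ne_zero q hq0 hq1
  haveI : W.IsElliptic := ⟨isUnit_iff_ne_zero.mpr hΔ0⟩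
  haveI : (tateCurve q).IsElliptic := ⟨isUnit_iff_ne_zero.mpr hTΔ⟩
  have hjj : W.j = (tateCurve q).j := by
    rw [j_eq_div, j_eq_div, TateLT4.j_tateCurve' q hq1, hjq]
  obtain ⟨C, hC⟩ := exists_variableChange_of_j_eq W (tateCurve q) hjj
  have h : tateCurve q = C • W := hC.symm
  have hTint' : IsIntegralW (C • W) := hC ▸ TateLT4.isIntegralW_tateCurve q hq1
  have hT4' : ‖(C • W).c₄‖ = 1 := hC ▸ TateLT4.norm_c₄_tateCurve q hq1
  obtain ⟨hu, hv, hr, hs, ht⟩ := vc_integral hW hTint' h4 hT4'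
  exact ⟨q, hq0, hq1, hjq.symm, pointEquiv h,
    fun P => redSingPt_pointEquiv W C h hu hv hr hs ht P⟩

/-- **the torsion parametrisation of `W`.** -/
theorem exists_torsion_param (n : ℕ) [NeZero n] (h6 : Nat.Coprime n 6) (hnK : ‖(n : K)‖ = 1)
    (W : WeierstrassCurve K) (hW : IsIntegralW W) (h4 : ‖W.c₄‖ = 1)
    (hΔ0 : W.Δ ≠ 0) (hΔ : ‖W.Δ‖ < 1) :
    ∃ φ : (ZMod n × ZMod n) →+ W.toAffine.Point, Function.Injective φ ∧
      (∀ P : W.toAffine.Point, n • P = 0 → ∃ s, φ s = P) ∧ (∀ s, n • φ s = 0) ∧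
      ∀ s, RedSingPt W (φ s) ↔ s.2 ≠ 0 := by
  obtain ⟨q, hq0, hq1, -, e, he⟩ := exists_tate_model W hW h4 hΔ0 hΔ
  have hnz : NeZero ((n : ℕ) : K) := ⟨Nat.cast_ne_zero.2 (NeZero.ne n)⟩
  obtain ⟨q', hq'⟩ := IsAlgClosed.exists_pow_nat_eq q (Nat.pos_of_ne_zero (NeZero.ne n))
  obtain ⟨ζ, hζ⟩ := HasEnoughRootsOfUnity.exists_primitiveRoot K n
  let D : TorsDataN K n :=
    { q := q, q' := q', ζ := ζ, hq0 := hq0, hq1 := hq1, hq' := hq', hζ := hζ,
      hΔ := TateLT4.Δ_tateCurve_ne_zero q hq0 hq1 }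
  refine ⟨(e : (tateCurve q).toAffine.Point →+ W.toAffine.Point).comp (tPHom D h6 hnK), ?_, ?_, ?_, ?_⟩
  · exact e.injective.comp (tP_injective D h6 hnK)
  · intro P hP
    have hP' : n • e.symm P = 0 := by rw [← map_nsmul, hP, map_zero]
    obtain ⟨s, hs⟩ := exists_tP_of_torsion D h6 hnK (e.symm P) hP'
    refine ⟨s, ?_⟩
    show e (tP D s) = P
    rw [hs, AddEquiv.apply_symm_apply]
  · intro s
    show n • e (tP D s) = 0
    rw [← map_nsmul, n_nsmul_tP D h6 hnK s, map_zero]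
  · intro s
    show RedSingPt W (e (tP D s)) ↔ s.2 ≠ 0
    rw [he]
    by_cases hs : s = 0
    · subst hs
      rw [tP_zero]
      exact ⟨fun h => absurd h (by exact fun h' => h'), fun h => absurd rfl h⟩
    · exact redSingPt_tP_iff D hnK s hs

end

end Fermat.Agent.MS.LOC.CanLocal5
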