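/-
Programme MS (S12), area LOC (helper5): **the canonical subgroup `Can_A(n)` of `E[n](ℚ̄)` at a place `A` of
multiplicative reduction**, through an embedding `f : ℚ̄ → K` adapted to `A`.

`W / ℤ`, `r ∣ Δ`, `r ∤ c₄`, `A` over `r`; `K` complete algebraically closed ultrametric of characteristic zero with
`‖n‖ < 1 ↔ r ∣ n` on `ℤ`; `f : ℚ̄ →ₐ[ℚ] K` with the **bridge** `InZeroComponentAt A Q ↔ ¬ RedSingPt (W / K) (f Q)` (for
`K = ℂ_[r]` and `f` adapted to `A` this is `MS/TATE/AdaptedEmb3`); `n` prime to `6 r`.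

* **`exists_global_param`** : an injective homomorphism `ψ : (ZMod n)² →+ E(ℚ̄)` onto `E[n]` with
  `W.InZeroComponentAt A (ψ s) ↔ s.2 = 0`;
* `nonempty_torsParam` : the same, packaged as `CanStruct5.TorsParam W A n` (whose consequences — `Can_A(n)` is a
  cyclic subgroup of order `n`, stable under the decomposition group, with `E[n] / Can` cyclic — are in `CanStruct5`).
-/
import Mathlib
import Fermat.Agent.MS.LOC.CanLocal5
import Fermat.Agent.MS.LOC.CanStruct5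
import Fermat.Agent.MZ.MOD.LocalGlobal5
import Fermat.Agent.MZ.MOD.ZeroCompGal5
import Fermat.Agent.DivPoly.CardEq29

set_option autoImplicit false
set_option linter.unusedSectionVars false
set_option linter.style.longLine false
set_option linter.style.haveILetI false

namespace Fermat.Agent.MS.LOC.CanGlobal5

open WeierstrassCurve WeierstrassCurve.Affine
open Fermat.Agent.MZ.MOD Fermat.Agent.MZ.MOD.RedType5 Fermat.Agent.MZ.MOD.LTTransport5
open Fermat.Agent.MZ.MOD.ZeroComp5 Fermat.Agent.MZ.MOD.LocalGlobal5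
open Fermat.Agent.MS.LOC.CanLocal5

local notation "Qb" => AlgebraicClosure ℚ

noncomputable section

variable {K : Type*} [NormedField K] [IsUltrametricDist K] [CompleteSpace K] [CharZero K]
  [DecidableEq K] [IsAlgClosed K]

/-- `‖n‖ = 1` for `n` prime to `r`. -/
theorem norm_natCast_eq_one {r : ℕ} (hK : ∀ n : ℤ, ‖(n : K)‖ < 1 ↔ (r : ℤ) ∣ n) {n : ℕ} (hrn : ¬ r ∣ n) :
    ‖(n : K)‖ = 1 := by
  have h1 : ‖((n : ℤ) : K)‖ ≤ 1 := IsUltrametricDist.norm_intCast_le_one K _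
  have h2 : ¬ ‖((n : ℤ) : K)‖ < 1 := by
    rw [hK]
    exact fun hdvd => hrn (Int.natCast_dvd_natCast.mp hdvd)
  have h3 : ‖((n : ℤ) : K)‖ = 1 := le_antisymm h1 (not_lt.mp h2)
  rwa [Int.cast_natCast] at h3

/-- **the global torsion parametrisation adapted to `A`.** -/
theorem exists_global_param {r : ℕ} (hK : ∀ n : ℤ, ‖(n : K)‖ < 1 ↔ (r : ℤ) ∣ n) (f : Qb →ₐ[ℚ] K)
    (W : WeierstrassCurve ℤ) (hΔ0 : W.Δ ≠ 0) (hΔ : (r : ℤ) ∣ W.Δ) (hc4 : ¬ (r : ℤ) ∣ W.c₄)
    (A : ValuationSubring Qb)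
    (hbridge : ∀ Q : ((W.map (Int.castRingHom ℚ))⁄Qb).Point,
      W.InZeroComponentAt A Q ↔ ¬ RedSingPt ((W.map (Int.castRingHom ℚ))⁄K) (Point.map f Q))
    (n : ℕ) [NeZero n] (h6 : Nat.Coprime n 6) (hrn : ¬ r ∣ n) :
    ∃ ψ : (ZMod n × ZMod n) →+ ((W.map (Int.castRingHom ℚ))⁄Qb).Point, Function.Injective ψ ∧
      (∀ P : ((W.map (Int.castRingHom ℚ))⁄Qb).Point, n • P = 0 → ∃ s, ψ s = P) ∧ (∀ s, n • ψ s = 0) ∧
      ∀ s, W.InZeroComponentAt A (ψ s) ↔ s.2 = 0 := by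
  classical
  -- the curve over `K`
  have hWK : ((W.map (Int.castRingHom ℚ))⁄K : WeierstrassCurve K) = W.map (Int.castRingHom K) :=
    baseChange_eq_map_int W
  have hint : IsIntegralW ((W.map (Int.castRingHom ℚ))⁄K : WeierstrassCurve K) := by
    rw [hWK]; exact isIntegralW_map_int W
  have hc4K : ((W.map (Int.castRingHom ℚ))⁄K : WeierstrassCurve K).c₄ = ((W.c₄ : ℤ) : K) := by
    rw [hWK, WeierstrassCurve.map_c₄, eq_intCast]
  have hΔK : ((W.map (Int.castRingHom ℚ))⁄K : WeierstrassCurve K).Δ = ((W.Δ : ℤ) : K) := by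
    rw [hWK, WeierstrassCurve.map_Δ, eq_intCast]
  have h4 : ‖((W.map (Int.castRingHom ℚ))⁄K : WeierstrassCurve K).c₄‖ = 1 := by
    rw [hc4K]
    exact le_antisymm (IsUltrametricDist.norm_intCast_le_one K _)
      (not_lt.mp fun hlt => hc4 ((hK _).mp hlt))
  have hΔ0K : ((W.map (Int.castRingHom ℚ))⁄K : WeierstrassCurve K).Δ ≠ 0 := by
    rw [hΔK]; exact Int.cast_ne_zero.mpr hΔ0
  have hΔ1K : ‖((W.map (Int.castRingHom ℚ))⁄K : WeierstrassCurve K).Δ‖ < 1 := by
    rw [hΔK]; exact (hK _).mpr hΔ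
  have hnK : ‖(n : K)‖ = 1 := norm_natCast_eq_one hK hrn
  obtain ⟨φ, hφinj, hφsurj, hφtors, hφred⟩ :=
    exists_torsion_param n h6 hnK _ hint h4 hΔ0K hΔ1K
  -- the torsion of `E(ℚ̄)`
  have hodd : Odd n := Fermat.Agent.MS.TATE.HomN3.odd_of_coprime_six h6
  have hΔQb : ((W.map (Int.castRingHom ℚ))⁄Qb).Δ ≠ 0 := by
    have h1 : ((W.map (Int.castRingHom ℚ))⁄Qb : WeierstrassCurve Qb) = W.map (Int.castRingHom Qb) := by
      show (W.map (Int.castRingHom ℚ)).map (algebraMap ℚ Qb) = _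
      rw [WeierstrassCurve.map_map]
      exact congrArg _ (RingHom.ext_int _ _)
    rw [h1, WeierstrassCurve.map_Δ]
    exact (map_ne_zero_iff _ (RingHom.injective_int (Int.castRingHom Qb))).mpr hΔ0
  have hcard := Fermat.Agent.DivPoly.CardEq29.card_torsionBy_eq
    (W := ((W.map (Int.castRingHom ℚ))⁄Qb)) hΔQb hodd
  have hfin : Finite (Submodule.torsionBy ℤ ((W.map (Int.castRingHom ℚ))⁄Qb).Point (n : ℤ)) :=
    Nat.finite_of_card_ne_zero (by rw [hcard]; exact pow_ne_zero 2 (NeZero.ne n))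
  -- the comparison map
  have hmapTors : ∀ P : Submodule.torsionBy ℤ ((W.map (Int.castRingHom ℚ))⁄Qb).Point (n : ℤ),
      n • Point.map (W' := W.map (Int.castRingHom ℚ)) f (P : ((W.map (Int.castRingHom ℚ))⁄Qb).Point) = 0 := by
    intro P
    have hP := P.2
    rw [Submodule.mem_torsionBy_iff, natCast_zsmul] at hP
    rw [← map_nsmul, hP, map_zero]
  choose g hg using fun P => hφsurj _ (hmapTors P)
  have hginj : Function.Injective g := by
    intro P P' h
    have h1 : Point.map (W' := W.map (Int.castRingHom ℚ)) f (P : ((W.map (Int.castRingHom ℚ))⁄Qb).Point) =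
        Point.map f (P' : ((W.map (Int.castRingHom ℚ))⁄Qb).Point) := by
      rw [← hg P, ← hg P', h]
    exact Subtype.ext (Point.map_injective f h1)
  have hgbij : Function.Bijective g := by
    apply hginj.bijective_of_nat_card_le
    rw [hcard, Nat.card_prod, Nat.card_zmod]
    exact le_of_eq (sq n).symm
  -- the inverse
  have hex : ∀ s : ZMod n × ZMod n, ∃ P : ((W.map (Int.castRingHom ℚ))⁄Qb).Point,
      Point.map (W' := W.map (Int.castRingHom ℚ)) f P = φ s := by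
    intro s
    obtain ⟨P, rfl⟩ := hgbij.2 s
    exact ⟨P, (hg P).symm⟩
  choose ψ hψ using hex
  have hψadd : ∀ s t, ψ (s + t) = ψ s + ψ t := by
    intro s t
    apply Point.map_injective f
    rw [map_add, hψ, hψ, hψ, map_add]
  refine ⟨AddMonoidHom.mk' ψ hψadd, ?_, ?_, ?_, ?_⟩
  · intro s t h
    apply hφinj
    rw [← hψ s, ← hψ t]
    exact congrArg _ h
  · intro P hP
    have hP' : n • Point.map (W' := W.map (Int.castRingHom ℚ)) f P = 0 := by
      rw [← map_nsmul, hP, map_zero]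
    obtain ⟨s, hs⟩ := hφsurj _ hP'
    refine ⟨s, Point.map_injective f ?_⟩
    show Point.map f (ψ s) = Point.map f P
    rw [hψ, hs]
  · intro s
    apply Point.map_injective f
    show Point.map f (n • ψ s) = Point.map f 0
    rw [map_nsmul, hψ, hφtors, map_zero]
  · intro s
    show W.InZeroComponentAt A (ψ s) ↔ s.2 = 0
    rw [hbridge, hψ, hφred, not_not]

/-- **the packaged form**: a `CanStruct5.TorsParam`. -/
theorem nonempty_torsParam {r : ℕ} (hK : ∀ n : ℤ, ‖(n : K)‖ < 1 ↔ (r : ℤ) ∣ n) (f : Qb →ₐ[ℚ] K)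
    (W : WeierstrassCurve ℤ) (hΔ0 : W.Δ ≠ 0) (hΔ : (r : ℤ) ∣ W.Δ) (hc4 : ¬ (r : ℤ) ∣ W.c₄)
    (A : ValuationSubring Qb)
    (hbridge : ∀ Q : ((W.map (Int.castRingHom ℚ))⁄Qb).Point,
      W.InZeroComponentAt A Q ↔ ¬ RedSingPt ((W.map (Int.castRingHom ℚ))⁄K) (Point.map f Q))
    (n : ℕ) [NeZero n] (h6 : Nat.Coprime n 6) (hrn : ¬ r ∣ n) :
    Nonempty (Fermat.Agent.MS.LOC.CanStruct5.TorsParam W A n) := by
  obtain ⟨ψ, h1, h2, h3, h4⟩ := exists_global_param hK f W hΔ0 hΔ hc4 A hbridge n h6 hrn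
  exact ⟨⟨ψ, h1, h2, h3, h4⟩⟩

end

end Fermat.Agent.MS.LOC.CanGlobal5
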