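/-
Programme MS (S12), area LOC (helper5): **the canonical subgroup at a multiplicative place in EVERY residue
characteristic** (in particular `r = p`, `n = p ^ k`): the versions of `CanLocal5.exists_torsion_param`,
`CanGlobal5.nonempty_torsParam`, `CanFinal5.nonempty_torsParam_of_mult` WITHOUT the hypothesis `r ∤ n`, on top of helper3's
`MS/TATE/HomP3` (Tate torsion parametrisation without `‖n‖ = 1`).

* `exists_torsion_param_gen`, `exists_global_param_gen`, `nonempty_torsParam_gen`;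
* **`nonempty_torsParam_of_mult_gen`** : `W / ℤ`, `Δ ≠ 0`, `r` prime, `r ∣ Δ`, `r ∤ c₄`, `A` over `r`, `n` prime to `6`:
  `Nonempty (CanStruct5.TorsParam W A n)`;  `exists_can_gen`.
-/
import Mathlib
import Fermat.Agent.MS.LOC.CanGlobal5
import Fermat.Agent.MS.TATE.AdaptedEmb3
import Fermat.Agent.MS.TATE.HomP3

set_option autoImplicit false
set_option linter.unusedSectionVars false
set_option linter.style.longLine false
set_option linter.style.haveILetI false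

namespace Fermat.Agent.MS.LOC.CanP5

open WeierstrassCurve WeierstrassCurve.Affine
open Fermat.Agent.MZ.MOD Fermat.Agent.MZ.MOD.RedType5 Fermat.Agent.MZ.MOD.LTTransport5
open Fermat.Agent.MZ.MOD.TateCurve4
open Fermat.Agent.MZ.MOD.ZeroComp5 Fermat.Agent.MZ.MOD.LocalGlobal5
open Fermat.Agent.MS.TATE.TorsN3 Fermat.Agent.MS.TATE
open Fermat.Agent.S05.Transport
open Fermat.Agent.MS.LOC.CanLocal5 Fermat.Agent.MS.LOC.CanStruct5
open Fermat.Agent.MS.TATE.AdaptedEmb3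

local notation "Qb" => AlgebraicClosure ℚ

noncomputable section

section Local

variable {K : Type*} [NormedField K] [IsUltrametricDist K] [CompleteSpace K] [CharZero K]
  [DecidableEq K] [IsAlgClosed K]

/-- **the torsion parametrisation of `W`, every residue characteristic.** -/
theorem exists_torsion_param_gen (n : ℕ) [NeZero n] (h6 : Nat.Coprime n 6)
    (W : WeierstrassCurve K) (hW : IsIntegralW W) (h4 : ‖W.c₄‖ = 1)
    (hΔ0 : W.Δ ≠ 0) (hΔ : ‖W.Δ‖ < 1) :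
    ∃ φ : (ZMod n × ZMod n) →+ W.toAffine.Point, Function.Injective φ ∧
      (∀ P : W.toAffine.Point, n • P = 0 → ∃ s, φ s = P) ∧ (∀ s, n • φ s = 0) ∧
      ∀ s, RedSingPt W (φ s) ↔ s.2 ≠ 0 := by
  obtain ⟨q, hq0, hq1, -, e, he⟩ := exists_tate_model W hW h4 hΔ0 hΔ
  have hnz : NeZero ((n : ℕ) : K) := ⟨Nat.cast_ne_zero.2 (NeZero.ne n)⟩
  obtain ⟨q', hq'⟩ := IsAlgClosed.exists_pow_nat_eq q (Nat.pos_of_ne_zero (NeZero.ne n))
  obtain ⟨ζ, hζ⟩ := HasEnoughRootsOfUnity.exists_primitiveRoot K n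
  let D : TorsDataN K n :=
    { q := q, q' := q', ζ := ζ, hq0 := hq0, hq1 := hq1, hq' := hq', hζ := hζ,
      hΔ := TateLT4.Δ_tateCurve_ne_zero q hq0 hq1 }
  refine ⟨(e : (tateCurve q).toAffine.Point →+ W.toAffine.Point).comp (HomP3.tPHom D h6), ?_, ?_, ?_, ?_⟩
  · exact e.injective.comp (HomP3.tP_injective D h6)
  · intro P hP
    have hP' : n • e.symm P = 0 := by rw [← map_nsmul, hP, map_zero]
    obtain ⟨s, hs⟩ := HomP3.exists_tP_of_torsion D h6 (e.symm P) hP'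
    refine ⟨s, ?_⟩
    show e (tP D s) = P
    rw [hs, AddEquiv.apply_symm_apply]
  · intro s
    show n • e (tP D s) = 0
    rw [← map_nsmul, HomP3.n_nsmul_tP D h6 s, map_zero]
  · intro s
    show RedSingPt W (e (tP D s)) ↔ s.2 ≠ 0
    rw [he]
    by_cases hs : s = 0
    · subst hs
      rw [tP_zero]
      exact ⟨fun h => absurd h (by exact fun h' => h'), fun h => absurd rfl h⟩
    · exact HomP3.redSingPt_tP_iff D s hs


/-- **the global torsion parametrisation adapted to `A`.** -/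
theorem exists_global_param_gen {r : ℕ} (hK : ∀ n : ℤ, ‖(n : K)‖ < 1 ↔ (r : ℤ) ∣ n) (f : Qb →ₐ[ℚ] K)
    (W : WeierstrassCurve ℤ) (hΔ0 : W.Δ ≠ 0) (hΔ : (r : ℤ) ∣ W.Δ) (hc4 : ¬ (r : ℤ) ∣ W.c₄)
    (A : ValuationSubring Qb)
    (hbridge : ∀ Q : ((W.map (Int.castRingHom ℚ))⁄Qb).Point,
      W.InZeroComponentAt A Q ↔ ¬ RedSingPt ((W.map (Int.castRingHom ℚ))⁄K) (Point.map f Q))
    (n : ℕ) [NeZero n] (h6 : Nat.Coprime n 6) :
    ∃ ψ : (ZMod n × ZMod n) →+ ((W.map (Int.castRingHom ℚ))⁄Qb).Point, Function.Injective ψ ∧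
      (∀ P : ((W.map (Int.castRingHom ℚ))⁄Qb).Point, n • P = 0 → ∃ s, ψ s = P) ∧ (∀ s, n • ψ s = 0) ∧
      ∀ s, W.InZeroComponentAt A (ψ s) ↔ s.2 = 0 := by
  classical
  -- the curve over `K`
  have hWK : ((W.map (Int.castRingHom ℚ))⁄K : WeierstrassCurve K) = W.map (Int.castRingHom K) :=
    baseChange_eq_map_int W
  have hint : IsIntegralW ((W.map (Int.castRingHom ℚ))⁄K : WeierstrassCurve K) := by
    rw [hWK]; exact isIntegralW_map_int W
  have hc4K : ((W.map (Int.castRingHom ℚ))⁄K : WeierstrassCurve K).c₄ = ((W.c₄ : ℤ) : K) := by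
    rw [hWK, WeierstrassCurve.map_c₄, eq_intCast]
  have hΔK : ((W.map (Int.castRingHom ℚ))⁄K : WeierstrassCurve K).Δ = ((W.Δ : ℤ) : K) := by
    rw [hWK, WeierstrassCurve.map_Δ, eq_intCast]
  have h4 : ‖((W.map (Int.castRingHom ℚ))⁄K : WeierstrassCurve K).c₄‖ = 1 := by
    rw [hc4K]
    exact le_antisymm (IsUltrametricDist.norm_intCast_le_one K _)
      (not_lt.mp fun hlt => hc4 ((hK _).mp hlt))
  have hΔ0K : ((W.map (Int.castRingHom ℚ))⁄K : WeierstrassCurve K).Δ ≠ 0 := by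
    rw [hΔK]; exact Int.cast_ne_zero.mpr hΔ0
  have hΔ1K : ‖((W.map (Int.castRingHom ℚ))⁄K : WeierstrassCurve K).Δ‖ < 1 := by
    rw [hΔK]; exact (hK _).mpr hΔ
  obtain ⟨φ, hφinj, hφsurj, hφtors, hφred⟩ :=
    exists_torsion_param_gen n h6 _ hint h4 hΔ0K hΔ1K
  -- the torsion of `E(ℚ̄)`
  have hodd : Odd n := Fermat.Agent.MS.TATE.HomN3.odd_of_coprime_six h6
  have hΔQb : ((W.map (Int.castRingHom ℚ))⁄Qb).Δ ≠ 0 := by
    have h1 : ((W.map (Int.castRingHom ℚ))⁄Qb : WeierstrassCurve Qb) = W.map (Int.castRingHom Qb) := by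
      show (W.map (Int.castRingHom ℚ)).map (algebraMap ℚ Qb) = _
      rw [WeierstrassCurve.map_map]
      exact congrArg _ (RingHom.ext_int _ _)
    rw [h1, WeierstrassCurve.map_Δ]
    exact (map_ne_zero_iff _ (RingHom.injective_int (Int.castRingHom Qb))).mpr hΔ0
  have hcard := Fermat.Agent.DivPoly.CardEq29.card_torsionBy_eq
    (W := ((W.map (Int.castRingHom ℚ))⁄Qb)) hΔQb hodd
  have hfin : Finite (Submodule.torsionBy ℤ ((W.map (Int.castRingHom ℚ))⁄Qb).Point (n : ℤ)) :=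
    Nat.finite_of_card_ne_zero (by rw [hcard]; exact pow_ne_zero 2 (NeZero.ne n))
  -- the comparison map
  have hmapTors : ∀ P : Submodule.torsionBy ℤ ((W.map (Int.castRingHom ℚ))⁄Qb).Point (n : ℤ),
      n • Point.map (W' := W.map (Int.castRingHom ℚ)) f (P : ((W.map (Int.castRingHom ℚ))⁄Qb).Point) = 0 := by
    intro P
    have hP := P.2
    rw [Submodule.mem_torsionBy_iff, natCast_zsmul] at hP
    rw [← map_nsmul, hP, map_zero]
  choose g hg using fun P => hφsurj _ (hmapTors P)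
  have hginj : Function.Injective g := by
    intro P P' h
    have h1 : Point.map (W' := W.map (Int.castRingHom ℚ)) f (P : ((W.map (Int.castRingHom ℚ))⁄Qb).Point) =
        Point.map f (P' : ((W.map (Int.castRingHom ℚ))⁄Qb).Point) := by
      rw [← hg P, ← hg P', h]
    exact Subtype.ext (Point.map_injective f h1)
  have hgbij : Function.Bijective g := by
    apply hginj.bijective_of_nat_card_le
    rw [hcard, Nat.card_prod, Nat.card_zmod]
    exact le_of_eq (sq n).symm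
  -- the inverse
  have hex : ∀ s : ZMod n × ZMod n, ∃ P : ((W.map (Int.castRingHom ℚ))⁄Qb).Point,
      Point.map (W' := W.map (Int.castRingHom ℚ)) f P = φ s := by
    intro s
    obtain ⟨P, rfl⟩ := hgbij.2 s
    exact ⟨P, (hg P).symm⟩
  choose ψ hψ using hex
  have hψadd : ∀ s t, ψ (s + t) = ψ s + ψ t := by
    intro s t
    apply Point.map_injective f
    rw [map_add, hψ, hψ, hψ, map_add]
  refine ⟨AddMonoidHom.mk' ψ hψadd, ?_, ?_, ?_, ?_⟩
  · intro s t h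
    apply hφinj
    rw [← hψ s, ← hψ t]
    exact congrArg _ h
  · intro P hP
    have hP' : n • Point.map (W' := W.map (Int.castRingHom ℚ)) f P = 0 := by
      rw [← map_nsmul, hP, map_zero]
    obtain ⟨s, hs⟩ := hφsurj _ hP'
    refine ⟨s, Point.map_injective f ?_⟩
    show Point.map f (ψ s) = Point.map f P
    rw [hψ, hs]
  · intro s
    apply Point.map_injective f
    show Point.map f (n • ψ s) = Point.map f 0
    rw [map_nsmul, hψ, hφtors, map_zero]
  · intro s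
    show W.InZeroComponentAt A (ψ s) ↔ s.2 = 0
    rw [hbridge, hψ, hφred, not_not]

/-- **the packaged form**: a `CanStruct5.TorsParam`. -/
theorem nonempty_torsParam_gen {r : ℕ} (hK : ∀ n : ℤ, ‖(n : K)‖ < 1 ↔ (r : ℤ) ∣ n) (f : Qb →ₐ[ℚ] K)
    (W : WeierstrassCurve ℤ) (hΔ0 : W.Δ ≠ 0) (hΔ : (r : ℤ) ∣ W.Δ) (hc4 : ¬ (r : ℤ) ∣ W.c₄)
    (A : ValuationSubring Qb)
    (hbridge : ∀ Q : ((W.map (Int.castRingHom ℚ))⁄Qb).Point,
      W.InZeroComponentAt A Q ↔ ¬ RedSingPt ((W.map (Int.castRingHom ℚ))⁄K) (Point.map f Q))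
    (n : ℕ) [NeZero n] (h6 : Nat.Coprime n 6) :
    Nonempty (Fermat.Agent.MS.LOC.CanStruct5.TorsParam W A n) := by
  obtain ⟨ψ, h1, h2, h3, h4⟩ := exists_global_param_gen hK f W hΔ0 hΔ hc4 A hbridge n h6
  exact ⟨⟨ψ, h1, h2, h3, h4⟩⟩


end Local

/-- **the torsion parametrisation adapted to a place over a multiplicative prime, `n` prime to `6` only.** -/
theorem nonempty_torsParam_of_mult_gen {r : ℕ} (hr : r.Prime) (W : WeierstrassCurve ℤ) (hΔ0 : W.Δ ≠ 0)
    (hΔ : (r : ℤ) ∣ W.Δ) (hc4 : ¬ (r : ℤ) ∣ W.c₄) (A : ValuationSubring Qb) (hA : A.LiesOverPrime r)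
    (n : ℕ) [NeZero n] (h6 : Nat.Coprime n 6) : Nonempty (TorsParam W A n) := by
  have hrF : Fact r.Prime := ⟨hr⟩
  classical
  obtain ⟨f, hf⟩ := exists_adapted r A hA
  exact nonempty_torsParam_gen (K := ℂ_[r])
    (Fermat.Agent.MZ.MOD.ZeroComp5.norm_intCast_padicComplex_lt_one_iff r) f W hΔ0 hΔ hc4 A
    (fun Q => inZeroComponentAt_iff_map W hf Q) n h6

/-- **the canonical subgroup `Can_A(n)`**, `n` prime to `6` only. -/
theorem exists_can_gen {r : ℕ} (hr : r.Prime) (W : WeierstrassCurve ℤ) (hΔ0 : W.Δ ≠ 0)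
    (hΔ : (r : ℤ) ∣ W.Δ) (hc4 : ¬ (r : ℤ) ∣ W.c₄) (A : ValuationSubring Qb) (hA : A.LiesOverPrime r)
    (n : ℕ) [NeZero n] (h6 : Nat.Coprime n 6) :
    ∃ H : AddSubgroup ((W.map (Int.castRingHom ℚ))⁄Qb).Point,
      (∀ P, P ∈ H ↔ n • P = 0 ∧ W.InZeroComponentAt A P) ∧ Nat.card H = n ∧
      (∃ g, addOrderOf g = n ∧ H = AddSubgroup.zmultiples g) ∧
      ∀ σ ∈ A.decompositionSubgroup ℚ, ∀ P ∈ H, σ • P ∈ H := by
  obtain ⟨T⟩ := nonempty_torsParam_of_mult_gen hr W hΔ0 hΔ hc4 A hA n h6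
  exact ⟨T.can, T.mem_can_iff, T.card_can, ⟨T.gen, T.addOrderOf_gen, T.can_eq_zmultiples⟩,
    fun σ hσ P hP => T.smul_mem_can hσ hP⟩

end

end Fermat.Agent.MS.LOC.CanP5
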