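/-
Programme MS (S12), area LOC (helper5): **the canonical subgroup at every place over a multiplicative prime
`r`, unconditionally** — `CanGlobal5.nonempty_torsParam` instantiated at `K = ℂ_[r]` with helper3's adapted
embeddings (`MS/TATE/AdaptedEmb3`).

* **`nonempty_torsParam_of_mult`** : `W / ℤ`, `Δ ≠ 0`, `r` prime with `r ∣ Δ`, `r ∤ c₄`, `A` over `r`, `n` prime to
  `6 r`: `Nonempty (CanStruct5.TorsParam W A n)`;
* corollaries: `exists_can` (a cyclic subgroup of order `n` cut out by `InZeroComponentAt A` on `E[n]`, stable under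
  the decomposition group of `A`).
-/
import Mathlib
import Fermat.Agent.MS.LOC.CanGlobal5
import Fermat.Agent.MS.TATE.AdaptedEmb3

set_option autoImplicit false
set_option linter.unusedSectionVars false
set_option linter.style.longLine false

namespace Fermat.Agent.MS.LOC.CanFinal5

open WeierstrassCurve WeierstrassCurve.Affine
open Fermat.Agent.MS.LOC.CanStruct5 Fermat.Agent.MS.LOC.CanGlobal5
open Fermat.Agent.MS.TATE.AdaptedEmb3

local notation "Qb" => AlgebraicClosure ℚ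

noncomputable section

/-- **the torsion parametrisation adapted to a place over a multiplicative prime.** -/
theorem nonempty_torsParam_of_mult {r : ℕ} (hr : r.Prime) (W : WeierstrassCurve ℤ) (hΔ0 : W.Δ ≠ 0)
    (hΔ : (r : ℤ) ∣ W.Δ) (hc4 : ¬ (r : ℤ) ∣ W.c₄) (A : ValuationSubring Qb) (hA : A.LiesOverPrime r)
    (n : ℕ) [NeZero n] (h6 : Nat.Coprime n 6) (hrn : ¬ r ∣ n) : Nonempty (TorsParam W A n) := by
  have hrF : Fact r.Prime := ⟨hr⟩
  classical
  obtain ⟨f, hf⟩ := exists_adapted r A hA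
  exact nonempty_torsParam (K := ℂ_[r])
    (Fermat.Agent.MZ.MOD.ZeroComp5.norm_intCast_padicComplex_lt_one_iff r) f W hΔ0 hΔ hc4 A
    (fun Q => inZeroComponentAt_iff_map W hf Q) n h6 hrn

/-- **the canonical subgroup `Can_A(n)`**: a cyclic subgroup of order `n`, cut out on `E[n]` by the zero component
at `A`, stable under the decomposition group of `A`. -/
theorem exists_can {r : ℕ} (hr : r.Prime) (W : WeierstrassCurve ℤ) (hΔ0 : W.Δ ≠ 0)
    (hΔ : (r : ℤ) ∣ W.Δ) (hc4 : ¬ (r : ℤ) ∣ W.c₄) (A : ValuationSubring Qb) (hA : A.LiesOverPrime r)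
    (n : ℕ) [NeZero n] (h6 : Nat.Coprime n 6) (hrn : ¬ r ∣ n) :
    ∃ H : AddSubgroup ((W.map (Int.castRingHom ℚ))⁄Qb).Point,
      (∀ P, P ∈ H ↔ n • P = 0 ∧ W.InZeroComponentAt A P) ∧ Nat.card H = n ∧
      (∃ g, addOrderOf g = n ∧ H = AddSubgroup.zmultiples g) ∧
      ∀ σ ∈ A.decompositionSubgroup ℚ, ∀ P ∈ H, σ • P ∈ H := by
  obtain ⟨T⟩ := nonempty_torsParam_of_mult hr W hΔ0 hΔ hc4 A hA n h6 hrn
  exact ⟨T.can, T.mem_can_iff, T.card_can, ⟨T.gen, T.addOrderOf_gen, T.can_eq_zmultiples⟩,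
    fun σ hσ P hP => T.smul_mem_can hσ hP⟩

end

end Fermat.Agent.MS.LOC.CanFinal5
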