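/-
PROGRAMME MS (S12), chapter LOC (helper2): **the integral model of the Frey curve.**

The Prelude's `FreyPackage.freyCurveInt : WeierstrassCurve ℤ`
(`y² + xy = x³ + ((bᵖ - 1 - aᵖ)/4) x² - (aᵖ bᵖ/16) x`, integer divisions, exact) is an integral
model of `FreyPackage.freyCurve`, with `c₄ = a²ᵖ + aᵖbᵖ + b²ᵖ`, `256 Δ = (aᵖ bᵖ cᵖ)²`; it is
semistable, with multiplicative reduction exactly at the primes dividing `abc` (in particular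
at `2`).

* `map_freyCurveInt` : `P.freyCurveInt.map (Int.castRingHom ℚ) = P.freyCurve`
* `c₄_freyCurveInt`, `Δ_freyCurveInt`, `Δ_ne_zero`
* `dvd_Δ_iff` : `(ℓ : ℤ) ∣ Δ ↔ (ℓ : ℤ) ∣ a * b * c` for a prime `ℓ`
* `not_dvd_c₄` : `(ℓ : ℤ) ∣ a * b * c → ¬ (ℓ : ℤ) ∣ c₄`
* `isSemistableModel`, `two_dvd_Δ`, `not_two_dvd_c₄`
-/
import Mathlib
import Fermat.Prelude.Def_FLTPrelim_FreyPackage
import Fermat.Prelude.Def_FLTPrelim_Modularity
import Fermat.Agent.S13.FreyE1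

set_option autoImplicit false

namespace Fermat.Agent.MS.LOC.FreyInt2

open Fermat.Agent.S13.FreyE1

variable (P : FreyPackage)

/-- the integer `a₂`. -/
theorem four_mul_a₂ : 4 * P.freyCurveInt.a₂ = P.b ^ P.p - 1 - P.a ^ P.p := by
  show 4 * ((P.b ^ P.p - 1 - P.a ^ P.p) / 4) = _
  exact Int.mul_ediv_cancel' (four_dvd P)

/-- the integer `a₄`. -/
theorem sixteen_mul_a₄ : 16 * P.freyCurveInt.a₄ = -(P.a ^ P.p) * P.b ^ P.p := by
  show 16 * (-(P.a ^ P.p) * (P.b ^ P.p) / 16) = _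
  apply Int.mul_ediv_cancel'
  have := sixteen_dvd P
  rw [neg_mul]
  exact (dvd_neg).mpr this

theorem map_freyCurveInt : P.freyCurveInt.map (Int.castRingHom ℚ) = P.freyCurve := by
  have h2 := congrArg (Int.cast : ℤ → ℚ) (four_mul_a₂ P)
  have h4 := congrArg (Int.cast : ℤ → ℚ) (sixteen_mul_a₄ P)
  push_cast at h2 h4
  ext
  · simp [FreyPackage.freyCurveInt, FreyPackage.freyCurve]
  · show ((P.freyCurveInt.a₂ : ℤ) : ℚ) = ((P.b : ℚ) ^ P.p - 1 - (P.a : ℚ) ^ P.p) / 4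
    rw [← h2]; ring
  · simp [FreyPackage.freyCurveInt, FreyPackage.freyCurve]
  · show ((P.freyCurveInt.a₄ : ℤ) : ℚ) = -((P.a : ℚ) ^ P.p) * (P.b : ℚ) ^ P.p / 16
    rw [← h4]; ring
  · simp [FreyPackage.freyCurveInt, FreyPackage.freyCurve]

theorem a₁_freyCurveInt : P.freyCurveInt.a₁ = 1 := rfl
theorem a₃_freyCurveInt : P.freyCurveInt.a₃ = 0 := rfl
theorem a₆_freyCurveInt : P.freyCurveInt.a₆ = 0 := rfl

theorem b₂_freyCurveInt : P.freyCurveInt.b₂ = P.b ^ P.p - P.a ^ P.p := by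
  rw [WeierstrassCurve.b₂, a₁_freyCurveInt]
  linear_combination four_mul_a₂ P

theorem eight_mul_b₄ : 8 * P.freyCurveInt.b₄ = -(P.a ^ P.p) * P.b ^ P.p := by
  rw [WeierstrassCurve.b₄, a₁_freyCurveInt, a₃_freyCurveInt]
  linear_combination sixteen_mul_a₄ P

theorem c₄_freyCurveInt :
    P.freyCurveInt.c₄ = (P.a ^ P.p) ^ 2 + P.a ^ P.p * P.b ^ P.p + (P.b ^ P.p) ^ 2 := by
  rw [WeierstrassCurve.c₄, b₂_freyCurveInt]
  linear_combination (-3 : ℤ) * eight_mul_b₄ P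

theorem Δ_freyCurveInt :
    256 * P.freyCurveInt.Δ = (P.a ^ P.p * P.b ^ P.p * P.c ^ P.p) ^ 2 := by
  have h4 := sixteen_mul_a₄ P
  have h2 := four_mul_a₂ P
  have hc : P.c ^ P.p = P.a ^ P.p + P.b ^ P.p := P.hFLT.symm
  rw [hc]
  simp only [WeierstrassCurve.Δ, WeierstrassCurve.b₂, WeierstrassCurve.b₄, WeierstrassCurve.b₆,
    WeierstrassCurve.b₈, a₁_freyCurveInt, a₃_freyCurveInt, a₆_freyCurveInt]
  set A := P.a ^ P.p
  set B := P.b ^ P.p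
  set a2 := P.freyCurveInt.a₂
  set a4 := P.freyCurveInt.a₄
  have e2 : B = 4 * a2 + 1 + A := by linarith
  have e4 : A * B = -16 * a4 := by linarith
  -- Δ = a4² (b₂² - 64 a4)... direct computation
  have key : (A * B * (A + B)) ^ 2 = (A * B) ^ 2 * ((B - A) ^ 2 + 4 * (A * B)) := by ring
  rw [key, e4]
  have e5 : B - A = 4 * a2 + 1 := by linarith
  rw [e5]
  ring

theorem Δ_ne_zero : P.freyCurveInt.Δ ≠ 0 := by
  intro h
  have := Δ_freyCurveInt P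
  rw [h, mul_zero] at this
  have h1 : P.a ^ P.p * P.b ^ P.p * P.c ^ P.p ≠ 0 :=
    mul_ne_zero (mul_ne_zero (pow_ne_zero _ P.ha0) (pow_ne_zero _ P.hb0)) (pow_ne_zero _ P.hc0)
  exact pow_ne_zero 2 h1 this.symm

section Div

variable {ℓ : ℕ} (hℓ : ℓ.Prime)
include hℓ

theorem not_dvd_of_dvd_gcd_one {x y : ℤ} (hg : gcd x y = 1) (hx : (ℓ : ℤ) ∣ x)
    (hy : (ℓ : ℤ) ∣ y) : False := by
  have h1 : (ℓ : ℤ) ∣ gcd x y := dvd_gcd hx hy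
  rw [hg] at h1
  have h2 : IsUnit (ℓ : ℤ) := isUnit_of_dvd_one h1
  rw [Int.isUnit_iff] at h2
  have := hℓ.two_le
  omega

theorem prime_int : Prime (ℓ : ℤ) := Nat.prime_iff_prime_int.mp hℓ

/-- a prime dividing `abc` does not divide `c₄`. -/
theorem not_dvd_c₄ (h : (ℓ : ℤ) ∣ P.a * P.b * P.c) : ¬ (ℓ : ℤ) ∣ P.freyCurveInt.c₄ := by
  have hp := prime_int hℓ
  rw [c₄_freyCurveInt]
  intro hc4
  have hc : P.c ^ P.p = P.a ^ P.p + P.b ^ P.p := P.hFLT.symm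
  rcases hp.dvd_or_dvd h with hab | hcc
  · rcases hp.dvd_or_dvd hab with ha | hb
    · -- ℓ ∣ a
      have hA : (ℓ : ℤ) ∣ P.a ^ P.p := dvd_pow ha P.hp0
      have hB2 : (ℓ : ℤ) ∣ (P.b ^ P.p) ^ 2 := by
        have : (P.b ^ P.p) ^ 2 = ((P.a ^ P.p) ^ 2 + P.a ^ P.p * P.b ^ P.p + (P.b ^ P.p) ^ 2)
            - P.a ^ P.p * (P.a ^ P.p + P.b ^ P.p) := by ring
        rw [this]
        exact dvd_sub hc4 (Dvd.dvd.mul_right hA _)
      have hb : (ℓ : ℤ) ∣ P.b := hp.dvd_of_dvd_pow (hp.dvd_of_dvd_pow hB2)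
      exact not_dvd_of_dvd_gcd_one hℓ P.hgcdab ha hb
    · -- ℓ ∣ b
      have hB : (ℓ : ℤ) ∣ P.b ^ P.p := dvd_pow hb P.hp0
      have hA2 : (ℓ : ℤ) ∣ (P.a ^ P.p) ^ 2 := by
        have : (P.a ^ P.p) ^ 2 = ((P.a ^ P.p) ^ 2 + P.a ^ P.p * P.b ^ P.p + (P.b ^ P.p) ^ 2)
            - P.b ^ P.p * (P.a ^ P.p + P.b ^ P.p) := by ring
        rw [this]
        exact dvd_sub hc4 (Dvd.dvd.mul_right hB _)
      have ha : (ℓ : ℤ) ∣ P.a := hp.dvd_of_dvd_pow (hp.dvd_of_dvd_pow hA2)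
      exact not_dvd_of_dvd_gcd_one hℓ P.hgcdab ha hb
  · -- ℓ ∣ c
    have hC : (ℓ : ℤ) ∣ P.c ^ P.p := dvd_pow hcc P.hp0
    have hAB : (ℓ : ℤ) ∣ P.a ^ P.p * P.b ^ P.p := by
      have : P.a ^ P.p * P.b ^ P.p = (P.c ^ P.p) ^ 2
          - ((P.a ^ P.p) ^ 2 + P.a ^ P.p * P.b ^ P.p + (P.b ^ P.p) ^ 2) := by
        rw [hc]; ring
      rw [this]
      exact dvd_sub (Dvd.dvd.pow hC (by norm_num)) hc4
    rcases hp.dvd_or_dvd hAB with hA | hB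
    · exact not_dvd_of_dvd_gcd_one hℓ P.hgcdac (hp.dvd_of_dvd_pow hA) hcc
    · exact not_dvd_of_dvd_gcd_one hℓ P.hgcdbc (hp.dvd_of_dvd_pow hB) hcc

/-- a prime dividing the discriminant divides `abc`. -/
theorem dvd_abc_of_dvd_Δ (h : (ℓ : ℤ) ∣ P.freyCurveInt.Δ) : (ℓ : ℤ) ∣ P.a * P.b * P.c := by
  have hp := prime_int hℓ
  have h1 : (ℓ : ℤ) ∣ (P.a ^ P.p * P.b ^ P.p * P.c ^ P.p) ^ 2 := by
    rw [← Δ_freyCurveInt]
    exact Dvd.dvd.mul_left h _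
  have h2 := hp.dvd_of_dvd_pow h1
  rw [← mul_pow, ← mul_pow] at h2
  exact hp.dvd_of_dvd_pow h2

omit hℓ in
theorem two_dvd_Δ : (2 : ℤ) ∣ P.freyCurveInt.Δ := by
  obtain ⟨k, hk⟩ := two_dvd_b P
  have h := Δ_freyCurveInt P
  have hp5 := P.hp5
  -- `2 ^ 10 ∣ (A B C)²`
  have h10 : (2 : ℤ) ^ 10 ∣ (P.a ^ P.p * P.b ^ P.p * P.c ^ P.p) ^ 2 := by
    have h5 : (2 : ℤ) ^ 5 ∣ P.b ^ P.p := by
      rw [hk, mul_pow]
      exact Dvd.dvd.mul_right (pow_dvd_pow 2 hp5) _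
    have h5' : (2 : ℤ) ^ 5 ∣ P.a ^ P.p * P.b ^ P.p * P.c ^ P.p :=
      Dvd.dvd.mul_right (Dvd.dvd.mul_left h5 _) _
    have := pow_dvd_pow_of_dvd h5' 2
    rwa [← pow_mul] at this
  rw [← h] at h10
  have h256 : (2 : ℤ) ^ 10 = 256 * 4 := by norm_num
  rw [h256] at h10
  have h4 : (4 : ℤ) ∣ P.freyCurveInt.Δ := (mul_dvd_mul_iff_left (by norm_num)).mp h10
  exact Dvd.dvd.trans (by norm_num) h4

/-- **the bad primes of the Frey curve are the primes dividing `abc`.** -/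
theorem dvd_Δ_iff : (ℓ : ℤ) ∣ P.freyCurveInt.Δ ↔ (ℓ : ℤ) ∣ P.a * P.b * P.c := by
  constructor
  · exact dvd_abc_of_dvd_Δ P hℓ
  · intro h
    rcases eq_or_ne ℓ 2 with rfl | h2
    · exact_mod_cast two_dvd_Δ P
    · have hp := prime_int hℓ
      have h1 : (ℓ : ℤ) ∣ 256 * P.freyCurveInt.Δ := by
        rw [Δ_freyCurveInt, ← mul_pow, ← mul_pow]
        exact Dvd.dvd.pow (Dvd.dvd.pow h P.hp0) (by norm_num)
      rcases hp.dvd_or_dvd h1 with h256 | hΔ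
      · exfalso
        have h3 : (ℓ : ℤ) ∣ 2 ^ 8 := by norm_num; exact h256
        have h4 : (ℓ : ℤ) ∣ 2 := hp.dvd_of_dvd_pow h3
        have h5 : ℓ ∣ 2 := by exact_mod_cast h4
        exact h2 ((Nat.prime_dvd_prime_iff_eq hℓ Nat.prime_two).mp h5)
      · exact hΔ

end Div

theorem two_dvd_abc : (2 : ℤ) ∣ P.a * P.b * P.c := P.two_dvd_abc

theorem not_two_dvd_c₄ : ¬ (2 : ℤ) ∣ P.freyCurveInt.c₄ := by
  have := not_dvd_c₄ P Nat.prime_two (by exact_mod_cast P.two_dvd_abc)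
  exact_mod_cast this

/-- **the integral Frey model is semistable.** -/
theorem isSemistableModel : P.freyCurveInt.IsSemistableModel := by
  intro ℓ hℓ hΔ
  exact not_dvd_c₄ P hℓ ((dvd_Δ_iff P hℓ).mp hΔ)

end Fermat.Agent.MS.LOC.FreyInt2
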