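/-
PROGRAMME MS (S12), chapter LOC (helper2): **inertia at a node-shape prime acts unipotently on the
torsion of odd order prime to the residue characteristic.**

Setting of `S13/NodeBasic`, `S13/NodeBranch` (characteristic free): `K` a field with a valuation
`v`, `W : y² + a₁xy = x³ + a₂x² + a₄x` in `NodeShape v W` (`a₁, a₂` integral, `0 < v a₄ < 1`,
`v b₂ = 1`), `α, β` the two tangent slopes at the node, `σ : K →+* K` "inertia-like"
(`v ∘ σ = v`, `v (σ z - z) < 1` for integral `z`).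

* `val_a₄_lt_of_odd_torsion` : a point of ODD order reducing to the node has `v a₄ < v x`.
* `inE0_sigma_sub_of_odd_torsion` : `σ P - P ∈ E₀` for every point `P` of odd order
  (generalises `Node.inE0_sigma_sub_of_torsion` from odd primes to odd numbers).
* `fixed_of_inE0` : `σ P = P` for every point `P ∈ E₀` killed by `n` with `v n = 1`.
So `(σ - 1) E[m] ⊆ E₀ ∩ E[m]` and `σ = 1` on `E₀ ∩ E[m]` for every odd `m` with `v m = 1`.
-/
import Mathlib
import Fermat.Agent.S13.NodeBranch
import Fermat.Agent.S13.Closeness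

set_option autoImplicit false

open WeierstrassCurve WeierstrassCurve.Affine

namespace Fermat.Agent.MS.LOC.NodeUnip2

open Fermat.Agent.S13.Node Fermat.Agent.S05

variable {K : Type*} [Field K] [DecidableEq K] {Γ₀ : Type*} [LinearOrderedCommGroupWithZero Γ₀]
  {v : Valuation K Γ₀} {W : Affine K}

/-- a point of odd order which reduces to the node is not too close to it: `v a₄ < v x`. -/
theorem val_a₄_lt_of_odd_torsion (hW : NodeShape v W) {m : ℕ} (hm : Odd m) {x y : K}
    (h : W.Nonsingular x y) (hx1 : v x < 1) (hmP : m • Point.some x y h = 0) :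
    v W.a₄ < v x := by
  by_contra hcon
  rw [not_lt] at hcon
  have h2 := inE0_two_nsmul_of_le hW h hcon
  obtain ⟨j, rfl⟩ := hm
  have h3 := inE0_nsmul hW h2 (j + 1)
  have e : (j + 1) • (2 • Point.some x y h) = Point.some x y h := by
    rw [← mul_nsmul, show 2 * (j + 1) = (2 * j + 1) + 1 by ring, add_nsmul, hmP, zero_add,
      one_nsmul]
  rw [e, inE0_some] at h3
  exact absurd hx1 (not_lt.mpr h3)

/-- **(σ − 1) E[m] ⊆ E₀** for odd `m`. -/
theorem inE0_sigma_sub_of_odd_torsion (hW : NodeShape v W) {α β : K} (hr : Roots W α β)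
    (σ : K →+* K) (hσv : ∀ z, v (σ z) = v z) (hσr : ∀ z, v z ≤ 1 → v (σ z - z) < 1)
    {m : ℕ} (hm : Odd m) {x y : K} (h : W.Nonsingular x y) (h' : W.Nonsingular (σ x) (σ y))
    (hmP : m • Point.some x y h = 0) :
    InE0 v (Point.some (σ x) (σ y) h' - Point.some x y h) := by
  rcases lt_or_ge (v x) 1 with hx1 | hx1
  · exact inE0_sigma_sub hW hr σ hσv hσr h h' hx1 (val_a₄_lt_of_odd_torsion hW hm h hx1 hmP)
  · exact inE0_sub hW ((inE0_some h').mpr (by rw [hσv]; exact hx1)) ((inE0_some h).mpr hx1)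

omit [DecidableEq K] in
theorem integralCoeffs_of_nodeShape (hW : NodeShape v W) : Kernel.IntegralCoeffs v W := by
  refine ⟨hW.a₁, hW.a₂, ?_, hW.a₄.le, ?_⟩
  · rw [hW.a₃, map_zero]; exact zero_le_one
  · rw [hW.a₆, map_zero]; exact zero_le_one

/-- **σ = 1 on E₀ ∩ E[n]**, `v n = 1`. -/
theorem fixed_of_inE0 (hW : NodeShape v W) (σ : K →+* K)
    (hσr : ∀ z, v z ≤ 1 → v (σ z - z) < 1) {n : ℕ} (hn : v (n : K) = 1) {x y : K}
    (h : W.Nonsingular x y) (h' : W.Nonsingular (σ x) (σ y))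
    (ht : n • Point.some x y h = 0) (ht' : n • Point.some (σ x) (σ y) h' = 0)
    (hx1 : 1 ≤ v x) : σ x = x ∧ σ y = y := by
  have hI := integralCoeffs_of_nodeShape hW
  have h3 := hW.a₃
  have h6 := hW.a₆
  have h4 := hW.a₄
  exact Fermat.Agent.S13.Closeness.fixed_of_nsmul_eq_zero_of_node_shape
    hI h3 h6 h4 σ hσr hn h h' ht ht' hx1

/-- the same with the hypothesis `P ∈ E₀`. -/
theorem fixed_of_inE0' (hW : NodeShape v W) (σ : K →+* K)
    (hσr : ∀ z, v z ≤ 1 → v (σ z - z) < 1) {n : ℕ} (hn : v (n : K) = 1) {x y : K}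
    (h : W.Nonsingular x y) (h' : W.Nonsingular (σ x) (σ y))
    (ht : n • Point.some x y h = 0) (ht' : n • Point.some (σ x) (σ y) h' = 0)
    (hE0 : InE0 v (Point.some x y h : W.Point)) : σ x = x ∧ σ y = y := by
  rw [inE0_some] at hE0
  exact fixed_of_inE0 hW σ hσr hn h h' ht ht' hE0

end Fermat.Agent.MS.LOC.NodeUnip2
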