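/-
Programme MS (S12), area LOC (helper5): **structure of the canonical subgroup `Can_A(n) = E[n] ∩ E⁰_A`.**

`TorsParam W A n` packages the conclusion of `CanGlobal5.exists_global_param`: an injective homomorphism
`ψ : (ZMod n)² →+ E(ℚ̄)` onto `E[n]` with `W.InZeroComponentAt A (ψ s) ↔ s.2 = 0`.  From it:

* `can : AddSubgroup E(ℚ̄)`, `mem_can_iff : P ∈ can ↔ n • P = 0 ∧ W.InZeroComponentAt A P`;
* `card_can : Nat.card can = n`, `can_eq_zmultiples` (cyclic, generated by `ψ (1, 0)` of exact order `n`);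
* `comp : E[n] → ZMod n` (the "component" `s.2`), additive on `E[n]`, onto, with kernel `can`
  (`E[n] / Can` is cyclic of order `n`);
* `smul_mem_can` : `can` is stable under the decomposition group of `A` (no hypothesis on the parametrisation
  beyond `mem_can_iff`);
* `inZero_add`, `inZero_nsmul` : the zero component is closed under the group law on `E[n]`.
-/
import Mathlib
import Fermat.Agent.MZ.MOD.ZeroCompGal5
import Fermat.Prelude.Def_FLTPrelim_GaloisRep

set_option autoImplicit false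
set_option linter.unusedSectionVars false
set_option linter.style.longLine false

namespace Fermat.Agent.MS.LOC.CanStruct5

open WeierstrassCurve WeierstrassCurve.Affine
open Fermat.Agent.MZ.MOD.ZeroCompGal5
open scoped Pointwise

local notation "Qb" => AlgebraicClosure ℚ

noncomputable section

/-- the torsion parametrisation adapted to `A`. -/
structure TorsParam (W : WeierstrassCurve ℤ) (A : ValuationSubring Qb) (n : ℕ) where
  /-- the parametrisation -/
  ψ : (ZMod n × ZMod n) →+ ((W.map (Int.castRingHom ℚ))⁄Qb).Point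
  inj : Function.Injective ψ
  surj : ∀ P : ((W.map (Int.castRingHom ℚ))⁄Qb).Point, n • P = 0 → ∃ s, ψ s = P
  tors : ∀ s, n • ψ s = 0
  zero_iff : ∀ s, W.InZeroComponentAt A (ψ s) ↔ s.2 = 0

variable {W : WeierstrassCurve ℤ} {A : ValuationSubring Qb} {n : ℕ} [NeZero n]

namespace TorsParam

variable (T : TorsParam W A n)

/-- the canonical subgroup. -/
def can : AddSubgroup ((W.map (Int.castRingHom ℚ))⁄Qb).Point :=
  (T.ψ.comp (AddMonoidHom.inl (ZMod n) (ZMod n))).range

theorem mem_can_iff (P : ((W.map (Int.castRingHom ℚ))⁄Qb).Point) :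
    P ∈ T.can ↔ n • P = 0 ∧ W.InZeroComponentAt A P := by
  constructor
  · rintro ⟨a, rfl⟩
    exact ⟨T.tors _, (T.zero_iff _).mpr rfl⟩
  · rintro ⟨hP, hz⟩
    obtain ⟨⟨a, b⟩, rfl⟩ := T.surj P hP
    have hb : b = 0 := (T.zero_iff (a, b)).mp hz
    subst hb
    exact ⟨a, rfl⟩

include T in
/-- the zero component is closed under addition on `E[n]`. -/
theorem inZero_add {P Q : ((W.map (Int.castRingHom ℚ))⁄Qb).Point} (hP : n • P = 0) (hQ : n • Q = 0)
    (hzP : W.InZeroComponentAt A P) (hzQ : W.InZeroComponentAt A Q) : W.InZeroComponentAt A (P + Q) :=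
  ((T.mem_can_iff _).mp (T.can.add_mem ((T.mem_can_iff P).mpr ⟨hP, hzP⟩)
    ((T.mem_can_iff Q).mpr ⟨hQ, hzQ⟩))).2

include T in
theorem inZero_nsmul {P : ((W.map (Int.castRingHom ℚ))⁄Qb).Point} (hP : n • P = 0)
    (hzP : W.InZeroComponentAt A P) (k : ℕ) : W.InZeroComponentAt A (k • P) :=
  ((T.mem_can_iff _).mp (T.can.nsmul_mem ((T.mem_can_iff P).mpr ⟨hP, hzP⟩) k)).2

include T in
theorem inZero_neg {P : ((W.map (Int.castRingHom ℚ))⁄Qb).Point} (hP : n • P = 0)
    (hzP : W.InZeroComponentAt A P) : W.InZeroComponentAt A (-P) :=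
  ((T.mem_can_iff _).mp (T.can.neg_mem ((T.mem_can_iff P).mpr ⟨hP, hzP⟩))).2

/-- the generator of the canonical subgroup. -/
def gen : ((W.map (Int.castRingHom ℚ))⁄Qb).Point := T.ψ (1, 0)

theorem ψ_fst (a : ZMod n) : T.ψ (a, 0) = a.val • T.gen := by
  have h : ((a, 0) : ZMod n × ZMod n) = a.val • ((1, 0) : ZMod n × ZMod n) := by
    ext
    · show a = a.val • (1 : ZMod n)
      rw [nsmul_eq_mul, mul_one, ZMod.natCast_zmod_val]
    · show (0 : ZMod n) = a.val • (0 : ZMod n)
      rw [smul_zero]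
  rw [h, map_nsmul]
  rfl

theorem can_eq_zmultiples : T.can = AddSubgroup.zmultiples T.gen := by
  ext P
  constructor
  · rintro ⟨a, rfl⟩
    show T.ψ (a, 0) ∈ _
    rw [T.ψ_fst a]
    exact AddSubgroup.nsmul_mem_zmultiples _ _
  · intro hP
    have hg : T.gen ∈ T.can := ⟨1, rfl⟩
    exact (AddSubgroup.zmultiples_le.mpr hg) hP

theorem card_can : Nat.card T.can = n := by
  have hinj : Function.Injective (T.ψ.comp (AddMonoidHom.inl (ZMod n) (ZMod n))) := by
    intro a b h
    have := T.inj h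
    exact (Prod.mk.inj this).1
  have e := AddMonoidHom.ofInjective hinj
  rw [can, ← Nat.card_congr e.toEquiv, Nat.card_zmod]

theorem addOrderOf_gen : addOrderOf T.gen = n := by
  rw [← Nat.card_zmultiples, ← T.can_eq_zmultiples, T.card_can]

/-- the component of a point of `E[n]` (junk outside `E[n]`). -/
def comp (P : ((W.map (Int.castRingHom ℚ))⁄Qb).Point) : ZMod n := by
  classical
  exact if h : n • P = 0 then (Classical.choose (T.surj P h)).2 else 0

theorem comp_ψ (s : ZMod n × ZMod n) : T.comp (T.ψ s) = s.2 := by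
  classical
  have h : n • T.ψ s = 0 := T.tors s
  rw [comp, dif_pos h]
  have := Classical.choose_spec (T.surj (T.ψ s) h)
  rw [T.inj this]

theorem comp_add {P Q : ((W.map (Int.castRingHom ℚ))⁄Qb).Point} (hP : n • P = 0) (hQ : n • Q = 0) :
    T.comp (P + Q) = T.comp P + T.comp Q := by
  obtain ⟨s, rfl⟩ := T.surj P hP
  obtain ⟨t, rfl⟩ := T.surj Q hQ
  rw [← map_add, comp_ψ, comp_ψ, comp_ψ]
  rfl

theorem comp_eq_zero_iff {P : ((W.map (Int.castRingHom ℚ))⁄Qb).Point} (hP : n • P = 0) :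
    T.comp P = 0 ↔ W.InZeroComponentAt A P := by
  obtain ⟨s, rfl⟩ := T.surj P hP
  rw [comp_ψ, T.zero_iff]

theorem comp_surjective (b : ZMod n) : ∃ P : ((W.map (Int.castRingHom ℚ))⁄Qb).Point,
    n • P = 0 ∧ T.comp P = b :=
  ⟨T.ψ (0, b), T.tors _, T.comp_ψ _⟩

end TorsParam

/-! ### stability under the decomposition group -/

/-- the set `Can_A(n)`. -/
def canSet (W : WeierstrassCurve ℤ) (A : ValuationSubring Qb) (n : ℕ) :
    Set ((W.map (Int.castRingHom ℚ))⁄Qb).Point :=
  {P | n • P = 0 ∧ W.InZeroComponentAt A P}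

theorem nsmul_galois_smul (σ : Qb ≃ₐ[ℚ] Qb) (k : ℕ) (P : ((W.map (Int.castRingHom ℚ))⁄Qb).Point) :
    k • (σ • P) = σ • (k • P) := by
  rw [Point.algEquiv_smul_def, Point.algEquiv_smul_def, map_nsmul]

/-- **`Can_A(n)` is stable under the decomposition group of `A`.** -/
theorem smul_mem_canSet {σ : Qb ≃ₐ[ℚ] Qb} (hσ : σ ∈ A.decompositionSubgroup ℚ)
    {P : ((W.map (Int.castRingHom ℚ))⁄Qb).Point} (hP : P ∈ canSet W A n) : σ • P ∈ canSet W A n := by
  refine ⟨?_, (inZeroComponentAt_smul_iff W hσ P).mpr hP.2⟩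
  rw [nsmul_galois_smul, hP.1]
  rfl

/-- transport along an arbitrary `σ`: `σ (Can_A(n)) = Can_{σA}(n)`. -/
theorem smul_mem_canSet_smul (σ : Qb ≃ₐ[ℚ] Qb)
    {P : ((W.map (Int.castRingHom ℚ))⁄Qb).Point} (hP : P ∈ canSet W A n) :
    σ • P ∈ canSet W (σ • A) n := by
  refine ⟨?_, (inZeroComponentAt_smul_smul_iff W A σ P).mpr hP.2⟩
  rw [nsmul_galois_smul, hP.1]
  rfl

theorem TorsParam.coe_can (T : TorsParam W A n) : (T.can : Set _) = canSet W A n := by
  ext P
  exact T.mem_can_iff P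

theorem TorsParam.smul_mem_can (T : TorsParam W A n) {σ : Qb ≃ₐ[ℚ] Qb}
    (hσ : σ ∈ A.decompositionSubgroup ℚ) {P : ((W.map (Int.castRingHom ℚ))⁄Qb).Point}
    (hP : P ∈ T.can) : σ • P ∈ T.can := by
  have h1 : P ∈ canSet W A n := by rw [← T.coe_can]; exact hP
  have h2 := smul_mem_canSet hσ h1
  rw [← T.coe_can] at h2
  exact h2

end

end Fermat.Agent.MS.LOC.CanStruct5
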