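/-
Programme MS (S12), area LOC (helper5): **(E0) for Frobenius-fixed points**: a point `Q ≠ 0` killed by a prime `p`,
lying in the identity component at a place `A` over `ℓ ≠ p, 2` of multiplicative reduction and FIXED BY ONE FROBENIUS
ELEMENT at `A`, forces `p ≤ 2ℓ - 1`.  (helper9's `ZeroComp9.prime_le_of_inZeroComponentAt` with "rational" weakened to
"fixed by a Frobenius at `A`": the residues of the coordinates then satisfy `t ^ ℓ = t`, hence lie in `𝔽_ℓ`.)

Used for the BASE CASE of the canonicity invariant of Route B: if the cofixed line `N ⊂ E[p]` were not the canonical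
line `Can_A(p)` at a place `A` over `ℓ`, the decomposition group of `A` would fix `Can_A(p)` pointwise, so
`p ≤ 2ℓ - 1`; in particular `N` is canonical at the places over `3` (and over every `ℓ < (p+1)/2`).

* `exists_zmod_of_pow_eq` : in a field of characteristic `ℓ`, `t ^ ℓ = t` implies `t ∈ 𝔽_ℓ`;
* `exists_reduced_point`, **`prime_le_of_frob_fixed`** (`ℓ` odd multiplicative: `p ≤ 2ℓ - 1`),
  **`prime_le_of_frob_fixed_crude`** (any `ℓ ≠ p`, e.g. `ℓ = 2`: `p ≤ 2ℓ + 1`).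
-/
import Mathlib
import Fermat.Agent.MZ.TOP.ZeroComp9
import Fermat.Prelude.Def_EllipticCurve_FrobeniusTrace
import Fermat.Agent.ES.Q58.CardBound20

set_option autoImplicit false
set_option linter.unusedSectionVars false
set_option linter.style.longLine false
set_option linter.style.haveILetI false

open WeierstrassCurve WeierstrassCurve.Affine Polynomial

namespace Fermat.Agent.MS.LOC.FrobZero5

open Fermat.Agent.MZ.TOP.ZeroComp9 Fermat.Agent.S05.Inertia

local notation "Kb" => AlgebraicClosure ℚ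

/-- in a field of characteristic `ℓ`, the solutions of `t ^ ℓ = t` are the elements of the prime field. -/
theorem exists_zmod_of_pow_eq {ℓ : ℕ} [Fact ℓ.Prime] {k : Type*} [Field k] [CharP k ℓ] (x : k)
    (hx : x ^ ℓ = x) : ∃ t : ZMod ℓ, ZMod.castHom (dvd_refl ℓ) k t = x := by
  classical
  have hℓ : ℓ.Prime := Fact.out
  set ι : ZMod ℓ →+* k := ZMod.castHom (dvd_refl ℓ) k with hι
  set f : k[X] := X ^ ℓ - X with hf
  have hdeg : f.natDegree = ℓ := by
    rw [hf]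
    exact FiniteField.X_pow_card_sub_X_natDegree_eq k hℓ.one_lt
  have hf0 : f ≠ 0 := by
    intro h0
    rw [h0, natDegree_zero] at hdeg
    exact hℓ.ne_zero hdeg.symm
  set S : Finset k := Finset.univ.image ι with hS
  have hScard : S.card = ℓ := by
    rw [hS, Finset.card_image_of_injective _ ι.injective, Finset.card_univ, ZMod.card]
  have hSsub : S ⊆ f.roots.toFinset := by
    intro y hy
    rw [hS, Finset.mem_image] at hy
    obtain ⟨t, -, rfl⟩ := hy
    rw [Multiset.mem_toFinset, mem_roots hf0, IsRoot.def, hf, eval_sub, eval_pow, eval_X, ← map_pow,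
      ZMod.pow_card, sub_self]
  have hle : f.roots.toFinset.card ≤ S.card := by
    rw [hScard]
    calc f.roots.toFinset.card ≤ Multiset.card f.roots := Multiset.toFinset_card_le _
      _ ≤ f.natDegree := card_roots' f
      _ = ℓ := hdeg
  have heq : S = f.roots.toFinset := Finset.eq_of_subset_of_card_le hSsub hle
  have hxroot : x ∈ f.roots.toFinset := by
    rw [Multiset.mem_toFinset, mem_roots hf0, IsRoot.def, hf, eval_sub, eval_pow, eval_X, hx, sub_self]
  rw [← heq, hS, Finset.mem_image] at hxroot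
  obtain ⟨t, -, ht⟩ := hxroot
  exact ⟨t, ht⟩

variable {ℓ : ℕ} (hℓ : ℓ.Prime) {A : ValuationSubring Kb} (hA : A.LiesOverPrime ℓ)

include hℓ hA in
/-- the residue of an element of `A` fixed by a Frobenius element at `A` lies in `𝔽_ℓ`. -/
theorem exists_zmod_of_frob_fixed [CharP (IsLocalRing.ResidueField A) ℓ] {φ : Kb ≃ₐ[ℚ] Kb}
    (hφ : A.IsFrobeniusAt φ ℓ) (x : Kb) (hx : x ∈ A) (hfix : φ x = x) :
    ∃ t : ZMod ℓ, ZMod.castHom (dvd_refl ℓ) (IsLocalRing.ResidueField A) t =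
      IsLocalRing.residue A ⟨x, hx⟩ := by
  haveI : Fact ℓ.Prime := ⟨hℓ⟩
  apply exists_zmod_of_pow_eq
  have h1 := hφ.smul_residue_eq (IsLocalRing.residue A ⟨x, hx⟩)
  rw [← h1]
  have h2 : (⟨φ, hφ.mem_decompositionSubgroup⟩ : A.decompositionSubgroup ℚ) • (⟨x, hx⟩ : A) = ⟨x, hx⟩ :=
    Subtype.ext hfix
  rw [← IsLocalRing.ResidueField.residue_smul (R := A) (A.decompositionSubgroup ℚ), h2]

include hℓ hA in
/-- the reduction of a Frobenius-fixed point of order `p` of the identity component is a nonsingular `𝔽_ℓ`-point of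
the reduced cubic, killed by `p`. -/
theorem exists_reduced_point [Fact ℓ.Prime] {p : ℕ} (hp : p.Prime) (hℓp : ℓ ≠ p)
    (W : WeierstrassCurve ℤ)
    (Q : ((W.map (Int.castRingHom ℚ))⁄Kb).Point) {φ : Kb ≃ₐ[ℚ] Kb} (hφ : A.IsFrobeniusAt φ ℓ)
    (hQfix : φ • Q = Q) (hQ0 : Q ≠ 0) (hpQ : p • Q = 0)
    (hz : W.InZeroComponentAt A Q) :
    ∃ (xt yt : ZMod ℓ) (hnsF : (W.map (Int.castRingHom (ZMod ℓ))).toAffine.Nonsingular xt yt),
      p • (Point.some xt yt hnsF : (W.map (Int.castRingHom (ZMod ℓ))).toAffine.Point) = 0 := by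
  classical
  haveI : NeZero ℓ := ⟨hℓ.ne_zero⟩
  rcases hz with h0 | ⟨x, y, h, hQ, hxy⟩
  · exact absurd h0 hQ0
  subst hQ
  -- Frobenius-fixed coordinates
  have hfix : φ x = x ∧ φ y = y := by
    obtain ⟨h', he⟩ := Fermat.Agent.S51.Galois.smul_some (W.map (Int.castRingHom ℚ)) φ h
    exact Point.some.inj (he.symm.trans hQfix)
  -- the division polynomial
  set f0 : ℤ[X] := W.ΨSq (p : ℤ) with hf0
  have hΨ : f0.eval₂ (Int.castRingHom Kb) x = 0 := by
    have h1 := (Fermat.Agent.DivPoly.A1Final.nsmul_eq_zero_iff h p hp.one_le).mp hpQ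
    have hcurve : ((W.map (Int.castRingHom ℚ))⁄Kb).ΨSq (p : ℤ) = f0.map (Int.castRingHom Kb) := by
      rw [baseChange_eq, WeierstrassCurve.map_ΨSq]
    rw [← eval_map, ← hcurve]
    exact h1
  have hℓp' : ¬ ℓ ∣ p := fun hd => hℓp ((Nat.prime_dvd_prime_iff_eq hℓ hp).mp hd)
  -- `x ∈ A`
  have hxA : x ∈ A := by
    have hp0 : (((p : ℤ) : ℤ) : ℤ) ≠ 0 := by simpa using hp.ne_zero
    have haeval : aeval x f0 = 0 := by
      rw [aeval_def]
      exact hΨ
    have hint := isIntegral_leadingCoeff_smul f0 x haeval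
    rw [hf0, WeierstrassCurve.leadingCoeff_ΨSq W (n := (p : ℤ)) hp0] at hint
    have hint' : IsIntegral A (((p : ℤ) ^ 2 : ℤ) • x) := hint.tower_top
    obtain ⟨z, hz⟩ := IsIntegrallyClosed.isIntegral_iff.mp hint'
    have hv : A.valuation (((p : ℤ) ^ 2 : ℤ) • x) ≤ 1 := by
      rw [← hz]
      exact (A.valuation_le_one_iff _).mpr z.2
    rw [zsmul_eq_mul, map_mul] at hv
    have hvp : A.valuation (((p : ℤ) ^ 2 : ℤ) : Kb) = 1 := by
      push_cast
      rw [map_pow, valuation_natCast_eq_one hℓ hA hℓp', one_pow]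
    rw [hvp, one_mul] at hv
    exact (A.valuation_le_one_iff x).mp hv
  rcases hxy with hxn | ⟨hx, hy, hns⟩
  · exact absurd hxA hxn
  -- the residue field
  haveI : CharP (IsLocalRing.ResidueField A) ℓ :=
    Fermat.Agent.ES.KRON.KronInst10.charP_residueField A hℓ hA
  set ι : ZMod ℓ →+* IsLocalRing.ResidueField A :=
    ZMod.castHom (dvd_refl ℓ) (IsLocalRing.ResidueField A) with hι
  obtain ⟨xt, hxt⟩ : ∃ t : ZMod ℓ, ι t = IsLocalRing.residue A ⟨x, hx⟩ :=
    exists_zmod_of_frob_fixed hℓ hA hφ x hx hfix.1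
  obtain ⟨yt, hyt⟩ : ∃ t : ZMod ℓ, ι t = IsLocalRing.residue A ⟨y, hy⟩ :=
    exists_zmod_of_frob_fixed hℓ hA hφ y hy hfix.2
  -- the reduced curve over `𝔽_ℓ`
  set WF : WeierstrassCurve (ZMod ℓ) := W.map (Int.castRingHom (ZMod ℓ)) with hWF
  have hmap : WF.map ι = W.map (Int.castRingHom (IsLocalRing.ResidueField A)) := by
    rw [hWF, WeierstrassCurve.map_map]
    congr 1
    exact RingHom.ext_int _ _
  have hnsF : WF.toAffine.Nonsingular xt yt := by
    have h1 := WeierstrassCurve.Affine.map_nonsingular (W := WF) (f := ι) ι.injective xt yt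
    refine h1.mp ?_
    rw [hxt, hyt]
    show (WF.map ι).toAffine.Nonsingular _ _
    rw [hmap]
    exact hns
  -- the division polynomial vanishes at `xt`
  have hΨA : f0.eval₂ (Int.castRingHom A) ⟨x, hx⟩ = 0 := by
    apply Subtype.val_injective
    have h1 := Polynomial.hom_eval₂ f0 (Int.castRingHom A) A.subtype ⟨x, hx⟩
    rw [RingHom.ext_int (A.subtype.comp (Int.castRingHom A)) (Int.castRingHom Kb)] at h1
    exact h1.trans hΨ
  have hΨk : f0.eval₂ (Int.castRingHom (IsLocalRing.ResidueField A))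
      (IsLocalRing.residue A ⟨x, hx⟩) = 0 := by
    have h1 := Polynomial.hom_eval₂ f0 (Int.castRingHom A) (IsLocalRing.residue A) ⟨x, hx⟩
    rw [RingHom.ext_int ((IsLocalRing.residue A).comp (Int.castRingHom A))
      (Int.castRingHom (IsLocalRing.ResidueField A)), hΨA, map_zero] at h1
    exact h1.symm
  have hΨF : (WF.ΨSq (p : ℤ)).eval xt = 0 := by
    apply ι.injective
    rw [map_zero, hWF, WeierstrassCurve.map_ΨSq, eval_map, Polynomial.hom_eval₂,
      RingHom.ext_int (ι.comp (Int.castRingHom (ZMod ℓ)))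
        (Int.castRingHom (IsLocalRing.ResidueField A)), hxt]
    exact hΨk
  exact ⟨xt, yt, hnsF, (Fermat.Agent.DivPoly.A1Final.nsmul_eq_zero_iff hnsF p hp.one_le).mpr hΨF⟩

include hℓ hA in
/-- **(E0), Frobenius-fixed form** (`ℓ` odd, multiplicative reduction): `p ≤ 2ℓ - 1`. -/
theorem prime_le_of_frob_fixed {p : ℕ} (hp : p.Prime) (hℓp : ℓ ≠ p) (hℓ2 : ℓ ≠ 2)
    (W : WeierstrassCurve ℤ) (hℓΔ : (ℓ : ℤ) ∣ W.Δ) (hℓc₄ : ¬ (ℓ : ℤ) ∣ W.c₄)
    (Q : ((W.map (Int.castRingHom ℚ))⁄Kb).Point) {φ : Kb ≃ₐ[ℚ] Kb} (hφ : A.IsFrobeniusAt φ ℓ)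
    (hQfix : φ • Q = Q) (hQ0 : Q ≠ 0) (hpQ : p • Q = 0)
    (hz : W.InZeroComponentAt A Q) : p ≤ 2 * ℓ - 1 := by
  classical
  have hF : Fact ℓ.Prime := ⟨hℓ⟩
  have hNZ : NeZero ℓ := ⟨hℓ.ne_zero⟩
  obtain ⟨xt, yt, hnsF, hpP⟩ := exists_reduced_point hℓ hA hp hℓp W Q hφ hQfix hQ0 hpQ hz
  have h2F : (2 : ZMod ℓ) ≠ 0 := by
    intro h
    have h1 : ((2 : ℕ) : ZMod ℓ) = 0 := by exact_mod_cast h
    rw [ZMod.natCast_eq_zero_iff] at h1
    exact hℓ2 ((Nat.prime_dvd_prime_iff_eq hℓ Nat.prime_two).mp h1)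
  have hΔF : (W.map (Int.castRingHom (ZMod ℓ))).Δ = 0 := by
    rw [WeierstrassCurve.map_Δ]
    exact (ZMod.intCast_zmod_eq_zero_iff_dvd W.Δ ℓ).mpr hℓΔ
  have hcF : (W.map (Int.castRingHom (ZMod ℓ))).c₄ ≠ 0 := by
    rw [WeierstrassCurve.map_c₄]
    exact fun h => hℓc₄ ((ZMod.intCast_zmod_eq_zero_iff_dvd W.c₄ ℓ).mp h)
  have hne : (Point.some xt yt hnsF : (W.map (Int.castRingHom (ZMod ℓ))).toAffine.Point) ≠ 0 :=
    Point.some_ne_zero _
  have := prime_le_of_nsmul_eq_zero (W.map (Int.castRingHom (ZMod ℓ))).toAffine h2F hΔF hcF hp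
    (Point.some xt yt hnsF) hne hpP
  rwa [ZMod.card] at this

include hℓ hA in
/-- **(E0), Frobenius-fixed form, crude bound** (any `ℓ ≠ p`, any reduction type): `p ≤ 2ℓ + 1`. -/
theorem prime_le_of_frob_fixed_crude {p : ℕ} (hp : p.Prime) (hℓp : ℓ ≠ p)
    (W : WeierstrassCurve ℤ)
    (Q : ((W.map (Int.castRingHom ℚ))⁄Kb).Point) {φ : Kb ≃ₐ[ℚ] Kb} (hφ : A.IsFrobeniusAt φ ℓ)
    (hQfix : φ • Q = Q) (hQ0 : Q ≠ 0) (hpQ : p • Q = 0)
    (hz : W.InZeroComponentAt A Q) : p ≤ 2 * ℓ + 1 := by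
  classical
  have hF : Fact ℓ.Prime := ⟨hℓ⟩
  have hNZ : NeZero ℓ := ⟨hℓ.ne_zero⟩
  obtain ⟨xt, yt, hnsF, hpP⟩ := exists_reduced_point hℓ hA hp hℓp W Q hφ hQfix hQ0 hpQ hz
  have hfin : Finite (W.map (Int.castRingHom (ZMod ℓ))).toAffine.Point :=
    finite_point (W.map (Int.castRingHom (ZMod ℓ))).toAffine
  have hne : (Point.some xt yt hnsF : (W.map (Int.castRingHom (ZMod ℓ))).toAffine.Point) ≠ 0 :=
    Point.some_ne_zero _
  have hord : addOrderOf (Point.some xt yt hnsF : (W.map (Int.castRingHom (ZMod ℓ))).toAffine.Point) = p := by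
    have hpF : Fact p.Prime := ⟨hp⟩
    exact addOrderOf_eq_prime hpP hne
  have h1 : p ∣ Nat.card (W.map (Int.castRingHom (ZMod ℓ))).toAffine.Point :=
    hord ▸ addOrderOf_dvd_natCard _
  have h2 : 0 < Nat.card (W.map (Int.castRingHom (ZMod ℓ))).toAffine.Point := Nat.card_pos
  have h3 := Fermat.Agent.ES.Q58.CardBound20.card_point_le (W.map (Int.castRingHom (ZMod ℓ))).toAffine
  rw [ZMod.card] at h3
  exact (Nat.le_of_dvd h2 h1).trans h3

end Fermat.Agent.MS.LOC.FrobZero5
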