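/-
Programme MS (S12), area LOC (helper5): **base case of the canonicity invariant of Route B.**

`N ⊆ E[p]` a subgroup of order `p` such that `G_ℚ` (or just one Frobenius element at `A`) acts trivially on
`E[p] / N` (the cofixed line), `A` a place over `ℓ ≠ p` of multiplicative reduction, `Can_A(p) = T.can` the canonical
subgroup (`T : TorsParam W A p`).  If `N ≠ Can_A(p)`, then `N ∩ Can_A(p) = 0`, so the Frobenius fixes `Can_A(p)`
pointwise (`(φ - 1) Can ⊆ N ∩ Can`), and `FrobZero5` gives `p ≤ 2ℓ + 1` (`p ≤ 2ℓ - 1` for odd `ℓ`).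

* `eq_of_inf_ne_bot` : two subgroups of prime order `p` meeting nontrivially are equal;
* **`can_eq_of_cofixed`** : `2ℓ + 1 < p → T.can = N` (covers `ℓ = 2, 3` for `p ≥ 11`);
* `can_eq_of_cofixed_odd` : `ℓ` odd, `2ℓ - 1 < p → T.can = N` (complements the S15-core step, which needs `p ≤ 2ℓ - 1`).
-/
import Mathlib
import Fermat.Agent.MS.LOC.FrobZero5
import Fermat.Agent.MS.LOC.CanStruct5
import Fermat.Agent.ES.FROB.FrobFacts12

set_option autoImplicit false
set_option linter.unusedSectionVars false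
set_option linter.style.longLine false

open WeierstrassCurve WeierstrassCurve.Affine

namespace Fermat.Agent.MS.LOC.BaseCan5

open Fermat.Agent.MS.LOC.CanStruct5 Fermat.Agent.MS.LOC.FrobZero5

local notation "Kb" => AlgebraicClosure ℚ

/-- two subgroups of prime order meeting nontrivially are equal. -/
theorem eq_of_inf_ne_bot {G : Type*} [AddGroup G] {p : ℕ} (hp : p.Prime) (H N : AddSubgroup G)
    (hH : Nat.card H = p) (hN : Nat.card N = p) {x : G} (hxH : x ∈ H) (hxN : x ∈ N) (hx0 : x ≠ 0) :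
    H = N := by
  have hfinH : Finite H := Nat.finite_of_card_ne_zero (by rw [hH]; exact hp.ne_zero)
  have hfinN : Finite N := Nat.finite_of_card_ne_zero (by rw [hN]; exact hp.ne_zero)
  have key : ∀ (M : AddSubgroup G), Nat.card M = p → Finite M → x ∈ M → AddSubgroup.zmultiples x = M := by
    intro M hM hfin hxM
    have hle : AddSubgroup.zmultiples x ≤ M := AddSubgroup.zmultiples_le.mpr hxM
    have hord : addOrderOf x ∣ p := by
      have h1 : addOrderOf (⟨x, hxM⟩ : M) ∣ Nat.card M := addOrderOf_dvd_natCard _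
      rw [hM] at h1
      have h2 : addOrderOf (⟨x, hxM⟩ : M) = addOrderOf x := by
        rw [← AddSubgroup.addOrderOf_coe]
      rwa [h2] at h1
    have hord' : addOrderOf x = p := by
      rcases (Nat.dvd_prime hp).mp hord with h1 | h1
      · exact absurd (AddMonoid.addOrderOf_eq_one_iff.mp h1) hx0
      · exact h1
    refine AddSubgroup.eq_of_le_of_card_ge hle ?_
    rw [Nat.card_zmultiples, hord', hM]
  rw [← key H hH hfinH hxH, key N hN hfinN hxN]

variable {ℓ : ℕ} {A : ValuationSubring Kb} {W : WeierstrassCurve ℤ} {p : ℕ} [NeZero p]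

/-- if `N ≠ Can_A(p)`, a Frobenius at `A` acting trivially on `E[p] / N` fixes the generator of `Can_A(p)`. -/
theorem frob_fixes_gen (hp : p.Prime) (T : TorsParam W A p)
    (N : AddSubgroup ((W.map (Int.castRingHom ℚ))⁄Kb).Point) (hNcard : Nat.card N = p)
    {φ : Kb ≃ₐ[ℚ] Kb} (hφD : φ ∈ A.decompositionSubgroup ℚ)
    (hcof : ∀ P : ((W.map (Int.castRingHom ℚ))⁄Kb).Point, p • P = 0 → φ • P - P ∈ N)
    (hne : T.can ≠ N) : φ • T.gen = T.gen := by
  have hg : T.gen ∈ T.can := ⟨1, rfl⟩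
  have h1 : φ • T.gen - T.gen ∈ T.can := T.can.sub_mem (T.smul_mem_can hφD hg) hg
  have h2 : φ • T.gen - T.gen ∈ N := hcof _ ((T.mem_can_iff _).mp hg).1
  by_contra hfix
  exact hne (eq_of_inf_ne_bot hp T.can N T.card_can hNcard h1 h2 (sub_ne_zero.mpr hfix))

/-- **base case of canonicity**, crude bound: `2ℓ + 1 < p` (covers `ℓ = 2` and `ℓ = 3`). -/
theorem can_eq_of_cofixed (hℓ : ℓ.Prime) (hA : A.LiesOverPrime ℓ) (hp : p.Prime) (hℓp : ℓ ≠ p)
    (T : TorsParam W A p)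
    (N : AddSubgroup ((W.map (Int.castRingHom ℚ))⁄Kb).Point) (hNcard : Nat.card N = p)
    (hcof : ∀ σ : Kb ≃ₐ[ℚ] Kb, ∀ P : ((W.map (Int.castRingHom ℚ))⁄Kb).Point, p • P = 0 → σ • P - P ∈ N)
    (hbig : 2 * ℓ + 1 < p) : T.can = N := by
  by_contra hne
  obtain ⟨φ, hφ⟩ := Fermat.Agent.ES.FROB.FrobFacts12.exists_isFrobeniusAt_of ℓ hℓ A hA
  have hfix := frob_fixes_gen hp T N hNcard hφ.mem_decompositionSubgroup (hcof φ) hne
  have hg : T.gen ∈ T.can := ⟨1, rfl⟩
  obtain ⟨hpg, hzg⟩ := (T.mem_can_iff _).mp hg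
  have hg0 : T.gen ≠ 0 := by
    intro h0
    have := T.addOrderOf_gen
    rw [h0, addOrderOf_zero] at this
    exact hp.one_lt.ne this
  have := prime_le_of_frob_fixed_crude hℓ hA hp hℓp W T.gen hφ hfix hg0 hpg hzg
  omega

/-- **base case of canonicity**, `ℓ` odd of multiplicative reduction: `2ℓ - 1 < p`. -/
theorem can_eq_of_cofixed_odd (hℓ : ℓ.Prime) (hA : A.LiesOverPrime ℓ) (hp : p.Prime) (hℓp : ℓ ≠ p)
    (hℓ2 : ℓ ≠ 2) (hℓΔ : (ℓ : ℤ) ∣ W.Δ) (hℓc₄ : ¬ (ℓ : ℤ) ∣ W.c₄) (T : TorsParam W A p)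
    (N : AddSubgroup ((W.map (Int.castRingHom ℚ))⁄Kb).Point) (hNcard : Nat.card N = p)
    (hcof : ∀ σ : Kb ≃ₐ[ℚ] Kb, ∀ P : ((W.map (Int.castRingHom ℚ))⁄Kb).Point, p • P = 0 → σ • P - P ∈ N)
    (hbig : 2 * ℓ - 1 < p) : T.can = N := by
  by_contra hne
  obtain ⟨φ, hφ⟩ := Fermat.Agent.ES.FROB.FrobFacts12.exists_isFrobeniusAt_of ℓ hℓ A hA
  have hfix := frob_fixes_gen hp T N hNcard hφ.mem_decompositionSubgroup (hcof φ) hne
  have hg : T.gen ∈ T.can := ⟨1, rfl⟩
  obtain ⟨hpg, hzg⟩ := (T.mem_can_iff _).mp hg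
  have hg0 : T.gen ≠ 0 := by
    intro h0
    have := T.addOrderOf_gen
    rw [h0, addOrderOf_zero] at this
    exact hp.one_lt.ne this
  have := prime_le_of_frob_fixed hℓ hA hp hℓp hℓ2 W hℓΔ hℓc₄ T.gen hφ hfix hg0 hpg hzg
  omega

end Fermat.Agent.MS.LOC.BaseCan5
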