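/-
Programme MS (S12), area LOC (helper5): **inertia fixes the prime-to-`ℓ` torsion of the identity component.**

`W` a Weierstrass curve over `ℤ` (any reduction type), `A` a valuation subring of `ℚ̄` over `ℓ`, `σ` in the
inertia group of `A`, `m` prime to `ℓ`.

* `unit_partial_of_residue_nonsingular` : a point with integral coordinates whose reduction is a nonsingular
  point of `W mod A` has a unit partial derivative;
* **`inertia_fix_of_inZero`** : `m • Q = 0`, `W.InZeroComponentAt A Q` ⟹ `σ • Q = Q`;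
* `inertia_fix_good` : at a good prime (`ℓ ∤ Δ`), `σ` fixes all of `E[m]` (`m` odd) — `•`-form of
  `ES/Q58/InertiaGood6.inertia_fix`.
-/
import Mathlib
import Fermat.Prelude.Def_EllipticCurve_ZeroComponentAt
import Fermat.Agent.ES.Q58.InertiaGood6
import Fermat.Agent.S13.Closeness
import Fermat.Agent.S51.GaloisDescent

set_option autoImplicit false
set_option linter.unusedSectionVars false
set_option linter.style.longLine false

open WeierstrassCurve WeierstrassCurve.Affine

namespace Fermat.Agent.MS.LOC.InertiaZero5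

open Fermat.Agent.S05.Inertia Fermat.Agent.S05.Kernel Fermat.Agent.S13.Closeness

local notation "Qb" => AlgebraicClosure ℚ
local notation "GQ" => (AlgebraicClosure ℚ ≃ₐ[ℚ] AlgebraicClosure ℚ)

/-- an element of `A` with nonzero residue has valuation `1`. -/
theorem valuation_eq_one_of_residue_ne_zero (A : ValuationSubring Qb) (z : A)
    (hz : IsLocalRing.residue A z ≠ 0) : A.valuation (z : Qb) = 1 :=
  (A.valuation_eq_one_iff z).mp ((IsLocalRing.residue_ne_zero_iff_isUnit z).mp hz)

/-- a point with integral coordinates whose reduction is nonsingular has a unit partial derivative. -/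
theorem unit_partial_of_residue_nonsingular (W : WeierstrassCurve ℤ) (A : ValuationSubring Qb)
    {x y : Qb} (hx : x ∈ A) (hy : y ∈ A)
    (hns : (W.map (Int.castRingHom (IsLocalRing.ResidueField A))).toAffine.Nonsingular
      (IsLocalRing.residue A ⟨x, hx⟩) (IsLocalRing.residue A ⟨y, hy⟩)) :
    A.valuation (WX ((W.map (Int.castRingHom ℚ))⁄Qb) x y) = 1 ∨
      A.valuation (WY ((W.map (Int.castRingHom ℚ))⁄Qb) x y) = 1 := by
  have hV : ((W.map (Int.castRingHom ℚ))⁄Qb) = (W.map (Int.castRingHom Qb)).toAffine :=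
    Fermat.Agent.ES.EC.TorsionLift20.baseChange_eq_map W
  rw [hV]
  rw [nonsingular_iff] at hns
  obtain ⟨-, hns⟩ := hns
  simp only [WeierstrassCurve.map_a₁, WeierstrassCurve.map_a₂, WeierstrassCurve.map_a₃,
    WeierstrassCurve.map_a₄, eq_intCast] at hns
  set X : A := ⟨x, hx⟩ with hX
  set Y : A := ⟨y, hy⟩ with hY
  rcases hns with h1 | h2
  · left
    -- the element of `A`
    set wx : A := (W.a₁ : A) * Y - 3 * X ^ 2 - 2 * (W.a₂ : A) * X - (W.a₄ : A) with hwx
    have hcoe : ((wx : A) : Qb) = WX (W.map (Int.castRingHom Qb)).toAffine x y := by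
      simp only [hwx, WX, WeierstrassCurve.map_a₁, WeierstrassCurve.map_a₂,
        WeierstrassCurve.map_a₄, eq_intCast]
      push_cast
      rfl
    rw [← hcoe]
    apply valuation_eq_one_of_residue_ne_zero
    intro h0
    apply h1
    have : IsLocalRing.residue A wx =
        (W.a₁ : IsLocalRing.ResidueField A) * IsLocalRing.residue A Y
          - 3 * (IsLocalRing.residue A X) ^ 2
          - 2 * (W.a₂ : IsLocalRing.ResidueField A) * IsLocalRing.residue A X
          - (W.a₄ : IsLocalRing.ResidueField A) := by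
      simp only [hwx, map_sub, map_mul, map_pow, map_intCast, map_ofNat]
    rw [this] at h0
    linear_combination h0
  · right
    set wy : A := 2 * Y + (W.a₁ : A) * X + (W.a₃ : A) with hwy
    have hcoe : ((wy : A) : Qb) = WY (W.map (Int.castRingHom Qb)).toAffine x y := by
      simp only [hwy, WY, WeierstrassCurve.map_a₁, WeierstrassCurve.map_a₃, eq_intCast]
      push_cast
      rfl
    rw [← hcoe]
    apply valuation_eq_one_of_residue_ne_zero
    intro h0
    apply h2
    have : IsLocalRing.residue A wy =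
        2 * IsLocalRing.residue A Y
          + (W.a₁ : IsLocalRing.ResidueField A) * IsLocalRing.residue A X
          + (W.a₃ : IsLocalRing.ResidueField A) := by
      simp only [hwy, map_add, map_mul, map_intCast, map_ofNat]
    rw [this] at h0
    linear_combination h0

/-- **inertia fixes the prime-to-`ℓ` torsion of the identity component** (any reduction type). -/
theorem inertia_fix_of_inZero (W : WeierstrassCurve ℤ) {ℓ m : ℕ} (hℓ : ℓ.Prime) (hℓm : ¬ ℓ ∣ m)
    {A : ValuationSubring Qb} (hA : A.LiesOverPrime ℓ) {σ : GQ} (hσ : σ ∈ A.inertiaSubgroupIn ℚ)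
    (Q : ((W.map (Int.castRingHom ℚ))⁄Qb).Point) (hQ : m • Q = 0)
    (hz : W.InZeroComponentAt A Q) : σ • Q = Q := by
  classical
  have hvm : A.valuation ((m : ℕ) : Qb) = 1 := valuation_natCast_eq_one hℓ hA hℓm
  have hint := Fermat.Agent.ES.Q58.InertiaGood6.integralCoeffs W A
  have hσr : ∀ z, A.valuation z ≤ 1 → A.valuation ((σ : Qb →+* Qb) z - z) < 1 :=
    fun _ hz => valuation_sub_lt_one_rat hσ hz
  have hσQ : m • (σ • Q) = 0 := by
    have := Point.algEquiv_smul_zsmul σ (m : ℤ) Q
    rw [natCast_zsmul, natCast_zsmul] at this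
    rw [← this, hQ]
    rfl
  rcases Q with _ | ⟨x, y, h⟩
  · rfl
  have hvx : A.valuation x ≤ 1 := x_integral_of_nsmul_eq_zero hint h hvm hQ
  have hxA : x ∈ A := (A.valuation_le_one_iff x).mp hvx
  have hns : ∃ (hx : x ∈ A) (hy : y ∈ A),
      (W.map (Int.castRingHom (IsLocalRing.ResidueField A))).toAffine.Nonsingular
        (IsLocalRing.residue A ⟨x, hx⟩) (IsLocalRing.residue A ⟨y, hy⟩) := by
    rcases hz with h0 | ⟨x', y', h'', hQe, hxy⟩
    · exact absurd h0 (Point.some_ne_zero _)
    · obtain ⟨rfl, rfl⟩ := Point.some.inj hQe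
      rcases hxy with hxn | hxy
      · exact absurd hxA hxn
      · exact hxy
  obtain ⟨hx, hy, hns⟩ := hns
  have h' : ((W.map (Int.castRingHom ℚ))⁄Qb).Nonsingular (σ x) (σ y) :=
    (Affine.baseChange_nonsingular (W := W.map (Int.castRingHom ℚ)) (f := σ.toAlgHom)
      σ.toAlgHom.injective x y).mpr h
  have hs : σ • (Point.some x y h : ((W.map (Int.castRingHom ℚ))⁄Qb).Point) =
      Point.some (σ x) (σ y) h' := rfl
  rw [hs] at hσQ ⊢
  obtain ⟨e1, e2⟩ := fixed_of_nsmul_eq_zero hint (σ : Qb →+* Qb) hσr hvm h h' hQ hσQ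
    (unit_partial_of_residue_nonsingular W A hx hy hns)
  have e1' : σ x = x := e1
  have e2' : σ y = y := e2
  simp only [e1', e2']

/-- **inertia at a good prime fixes the odd prime-to-`ℓ` torsion** (`•`-form of `InertiaGood6.inertia_fix`). -/
theorem inertia_fix_good (W : WeierstrassCurve ℤ) {ℓ m : ℕ} (hℓ : ℓ.Prime)
    (hgood : ¬ (ℓ : ℤ) ∣ W.Δ) (hm : Odd m) (hℓm : ¬ ℓ ∣ m)
    {A : ValuationSubring Qb} (hA : A.LiesOverPrime ℓ) {σ : GQ} (hσ : σ ∈ A.inertiaSubgroupIn ℚ)
    (Q : ((W.map (Int.castRingHom ℚ))⁄Qb).Point) (hQ : m • Q = 0) : σ • Q = Q :=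
  Fermat.Agent.ES.Q58.InertiaGood6.inertia_fix W hℓ hgood hm hℓm hA hσ Q hQ

end Fermat.Agent.MS.LOC.InertiaZero5
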