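/-
Programme MS (S12), area LOC (helper5): **from the node-shape `E₀` to `InZeroComponentAt`.**

`W` an integral Weierstrass model, `A` a valuation subring of `ℚ̄`.  Suppose the curve `E = W_ℚ̄` is
`C • W₂` for a change of variables `C = (u, r, s, t)` with `u` a unit at `A` and `r, s` integral, and a
curve `W₂` over `ℚ̄` in the node shape of `S13/NodeBasic` at `A` (`a₃ = a₆ = 0`, `0 < v a₄ < 1`, `v b₂ = 1`).
Then a point of `E` whose image in `W₂` lies in `E₀` (does not reduce to the node `(0,0)`) lies in
`W.InZeroComponentAt A`.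

* `WX_vc`, `WY_vc` : the partial derivatives under a change of variables;
* `not_both_small_of_vc` : a point of `C • W₂` with `v X = 1` has a unit partial derivative;
* `inZero_of_not_both_small` : integral point with a unit partial derivative ⟹ nonsingular reduction;
* **`inZero_of_inE0_vc`**, `inZero_of_inE0` (the case `C = 1`).
-/
import Mathlib
import Fermat.Prelude.Def_EllipticCurve_ZeroComponentAt
import Fermat.Agent.S05.Transport
import Fermat.Agent.S13.NodeBasic
import Fermat.Agent.S13.Closeness
import Fermat.Agent.MS.LOC.NodeUnip2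
import Fermat.Agent.MS.LOC.InertiaZero5

set_option autoImplicit false
set_option linter.unusedSectionVars false
set_option linter.style.longLine false

open WeierstrassCurve WeierstrassCurve.Affine

namespace Fermat.Agent.MS.LOC.NodeBridge5

open Fermat.Agent.S05.Transport Fermat.Agent.S13.Node Fermat.Agent.S13.Closeness
open Fermat.Agent.S05.Kernel

section Field

variable {K : Type*} [Field K] {Γ₀ : Type*} [LinearOrderedCommGroupWithZero Γ₀]
  {v : Valuation K Γ₀} {W₁ W₂ : WeierstrassCurve K} {C : VariableChange K}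

/-- `∂/∂y` under a change of variables. -/
theorem WY_vc (h : W₁ = C • W₂) (x y : K) :
    WY W₂.toAffine (vcX C x) (vcY C x y) = (C.u : K) ^ 3 * WY W₁.toAffine x y := by
  subst h
  have hu := u_ne_zero C
  simp only [WY, variableChange_a₁, variableChange_a₃, vcX, vcY, Units.val_inv_eq_inv_val]
  field_simp
  ring

/-- `∂/∂x` under a change of variables. -/
theorem WX_vc (h : W₁ = C • W₂) (x y : K) :
    WX W₂.toAffine (vcX C x) (vcY C x y) =
      (C.u : K) ^ 4 * WX W₁.toAffine x y - C.s * ((C.u : K) ^ 3 * WY W₁.toAffine x y) := by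
  subst h
  have hu := u_ne_zero C
  simp only [WX, WY, variableChange_a₁, variableChange_a₂, variableChange_a₃, variableChange_a₄,
    vcX, vcY, Units.val_inv_eq_inv_val]
  field_simp
  ring

/-- a point of `C • W₂` (`W₂` in node shape, `u` a unit, `s` integral) whose image does not reduce to
the node and has integral `X` has a unit partial derivative. -/
theorem not_both_small_of_vc (h : W₁ = C • W₂) (hW₂ : NodeShape v W₂.toAffine)
    (hu : v (C.u : K) = 1) (hs : v C.s ≤ 1) {x y : K} (heq : W₁.toAffine.Equation x y)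
    (hX : v (vcX C x) = 1) :
    ¬ (v (WX W₁.toAffine x y) < 1 ∧ v (WY W₁.toAffine x y) < 1) := by
  rintro ⟨h1, h2⟩
  have hI := Fermat.Agent.MS.LOC.NodeUnip2.integralCoeffs_of_nodeShape hW₂
  have heq₂ : W₂.toAffine.Equation (vcX C x) (vcY C x y) := (equation_iff_vc h x y).mpr heq
  have hY2 : v ((C.u : K) ^ 3 * WY W₁.toAffine x y) < 1 := by
    rw [map_mul, map_pow, hu, one_pow, one_mul]
    exact h2
  have hY2' : v (WY W₂.toAffine (vcX C x) (vcY C x y)) < 1 := by
    rw [WY_vc h]
    exact hY2
  have hX2' : v (WX W₂.toAffine (vcX C x) (vcY C x y)) < 1 := by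
    rw [WX_vc h]
    refine Valuation.map_sub_lt v ?_ ?_
    · rw [map_mul, map_pow, hu, one_pow, one_mul]
      exact h1
    · rw [map_mul]
      calc v C.s * v ((C.u : K) ^ 3 * WY W₁.toAffine x y)
          ≤ 1 * v ((C.u : K) ^ 3 * WY W₁.toAffine x y) := mul_le_mul_left hs _
        _ = v ((C.u : K) ^ 3 * WY W₁.toAffine x y) := one_mul _
        _ < 1 := hY2
  rcases unit_partial_of_node_shape hI hW₂.a₃ hW₂.a₆ hW₂.a₄ heq₂ hX with h' | h'
  · rw [h'] at hX2'
    exact lt_irrefl _ hX2'
  · rw [h'] at hY2'
    exact lt_irrefl _ hY2'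

end Field

local notation "Qb" => AlgebraicClosure ℚ

/-- an integral point with a unit partial derivative has nonsingular reduction. -/
theorem inZero_of_not_both_small (W : WeierstrassCurve ℤ) (A : ValuationSubring Qb) {x y : Qb}
    (h : ((W.map (Int.castRingHom ℚ))⁄Qb).Nonsingular x y)
    (hsm : x ∈ A → ¬ (A.valuation (WX ((W.map (Int.castRingHom ℚ))⁄Qb) x y) < 1 ∧
      A.valuation (WY ((W.map (Int.castRingHom ℚ))⁄Qb) x y) < 1)) :
    W.InZeroComponentAt A (Point.some x y h) := by
  by_cases hx : x ∈ A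
  swap
  · exact Or.inr ⟨x, y, h, rfl, Or.inl hx⟩
  have hint := Fermat.Agent.ES.Q58.InertiaGood6.integralCoeffs W A
  have hvx : A.valuation x ≤ 1 := (A.valuation_le_one_iff x).mpr hx
  have hy : y ∈ A := (A.valuation_le_one_iff y).mp (vy_le_one hint h.1 hvx)
  refine Or.inr ⟨x, y, h, rfl, Or.inr ⟨hx, hy, ?_⟩⟩
  have hsm' := hsm hx
  have hV : ((W.map (Int.castRingHom ℚ))⁄Qb) = (W.map (Int.castRingHom Qb)).toAffine :=
    Fermat.Agent.ES.EC.TorsionLift20.baseChange_eq_map W
  rw [hV] at hsm'
  have heq := h.1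
  rw [hV, equation_iff] at heq
  simp only [WeierstrassCurve.map_a₁, WeierstrassCurve.map_a₂, WeierstrassCurve.map_a₃,
    WeierstrassCurve.map_a₄, WeierstrassCurve.map_a₆, eq_intCast] at heq
  set X : A := ⟨x, hx⟩ with hX
  set Y : A := ⟨y, hy⟩ with hY
  -- the equation in `A`
  have heqA : Y ^ 2 + (W.a₁ : A) * X * Y + (W.a₃ : A) * Y =
      X ^ 3 + (W.a₂ : A) * X ^ 2 + (W.a₄ : A) * X + (W.a₆ : A) := by
    apply Subtype.ext
    push_cast
    exact heq
  have heqk := congrArg (IsLocalRing.residue A) heqA
  simp only [map_add, map_mul, map_pow, map_intCast] at heqk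
  -- the partial derivatives in `A`
  set wx : A := (W.a₁ : A) * Y - 3 * X ^ 2 - 2 * (W.a₂ : A) * X - (W.a₄ : A) with hwx
  have hcoex : ((wx : A) : Qb) = WX (W.map (Int.castRingHom Qb)).toAffine x y := by
    simp only [hwx, WX, WeierstrassCurve.map_a₁, WeierstrassCurve.map_a₂,
      WeierstrassCurve.map_a₄, eq_intCast]
    push_cast
    rfl
  have hresx : IsLocalRing.residue A wx =
      (W.a₁ : IsLocalRing.ResidueField A) * IsLocalRing.residue A Y
        - 3 * (IsLocalRing.residue A X) ^ 2
        - 2 * (W.a₂ : IsLocalRing.ResidueField A) * IsLocalRing.residue A X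
        - (W.a₄ : IsLocalRing.ResidueField A) := by
    simp only [hwx, map_sub, map_mul, map_pow, map_intCast, map_ofNat]
  set wy : A := 2 * Y + (W.a₁ : A) * X + (W.a₃ : A) with hwy
  have hcoey : ((wy : A) : Qb) = WY (W.map (Int.castRingHom Qb)).toAffine x y := by
    simp only [hwy, WY, WeierstrassCurve.map_a₁, WeierstrassCurve.map_a₃, eq_intCast]
    push_cast
    rfl
  have hresy : IsLocalRing.residue A wy =
      2 * IsLocalRing.residue A Y
        + (W.a₁ : IsLocalRing.ResidueField A) * IsLocalRing.residue A X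
        + (W.a₃ : IsLocalRing.ResidueField A) := by
    simp only [hwy, map_add, map_mul, map_intCast, map_ofNat]
  have hsmall : ∀ z : A, IsLocalRing.residue A z = 0 → A.valuation (z : Qb) < 1 := fun z hz =>
    (A.valuation_lt_one_iff z).mp ((IsLocalRing.residue_eq_zero_iff z).mp hz)
  rw [nonsingular_iff, equation_iff]
  simp only [WeierstrassCurve.map_a₁, WeierstrassCurve.map_a₂, WeierstrassCurve.map_a₃,
    WeierstrassCurve.map_a₄, WeierstrassCurve.map_a₆, eq_intCast]
  refine ⟨heqk, ?_⟩
  by_contra hcon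
  rw [not_or, not_not, not_not] at hcon
  obtain ⟨c1, c2⟩ := hcon
  apply hsm'
  constructor
  · rw [← hcoex]
    apply hsmall
    rw [hresx]
    linear_combination c1
  · rw [← hcoey]
    apply hsmall
    rw [hresy]
    linear_combination c2

/-- **the bridge**: a point whose image under an integral change of variables to a node-shape model lies in
`E₀` lies in the zero component. -/
theorem inZero_of_inE0_vc (W : WeierstrassCurve ℤ) (A : ValuationSubring Qb)
    {W₂ : WeierstrassCurve Qb} {C : VariableChange Qb}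
    (h : (W.map (Int.castRingHom ℚ)).baseChange Qb = C • W₂)
    (hW₂ : NodeShape A.valuation W₂.toAffine) (hu : A.valuation (C.u : Qb) = 1)
    (hr : A.valuation C.r ≤ 1) (hs : A.valuation C.s ≤ 1)
    (z : ((W.map (Int.castRingHom ℚ))⁄Qb).Point) (hz : InE0 A.valuation (pointEquiv h z)) :
    W.InZeroComponentAt A z := by
  rcases z with _ | ⟨x, y, hxy⟩
  · exact Or.inl rfl
  rw [Fermat.Agent.S05.Transport.pointEquiv_some, inE0_some] at hz
  refine inZero_of_not_both_small W A hxy (fun hx => ?_)
  have hvx : A.valuation x ≤ 1 := (A.valuation_le_one_iff x).mpr hx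
  have hX1 : A.valuation (vcX C x) ≤ 1 := by
    unfold vcX
    refine Valuation.map_add_le _ ?_ hr
    rw [map_mul, map_pow, hu, one_pow, one_mul]
    exact hvx
  exact not_both_small_of_vc h hW₂ hu hs hxy.1 (le_antisymm hX1 hz)

/-- **the bridge, without change of variables**: for an integral model which is itself in node shape at `A`,
`E₀` is contained in the zero component. -/
theorem inZero_of_inE0 (W : WeierstrassCurve ℤ) (A : ValuationSubring Qb)
    (hW : NodeShape A.valuation ((W.map (Int.castRingHom ℚ))⁄Qb))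
    (z : ((W.map (Int.castRingHom ℚ))⁄Qb).Point) (hz : InE0 A.valuation z) :
    W.InZeroComponentAt A z := by
  rcases z with _ | ⟨x, y, hxy⟩
  · exact Or.inl rfl
  rw [inE0_some] at hz
  refine inZero_of_not_both_small W A hxy (fun hx => ?_)
  have hvx : A.valuation x ≤ 1 := (A.valuation_le_one_iff x).mpr hx
  have hI := Fermat.Agent.MS.LOC.NodeUnip2.integralCoeffs_of_nodeShape hW
  rintro ⟨h1, h2⟩
  rcases unit_partial_of_node_shape hI hW.a₃ hW.a₆ hW.a₄ hxy.1 (le_antisymm hvx hz) with h' | h'
  · rw [h'] at h1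
    exact lt_irrefl _ h1
  · rw [h'] at h2
    exact lt_irrefl _ h2

end Fermat.Agent.MS.LOC.NodeBridge5
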