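/-
PROGRAMME MS (S12), chapter LOC (helper2): **unipotence of inertia on `E[m]` at a node-shape prime,
over `ℚ̄`.**

`E` a Weierstrass curve over `ℚ`, `A` a valuation subring of `ℚ̄` such that `E⁄ℚ̄` has the node shape
of `S13/NodeBasic` at `A` (the Frey curve at `2` as it stands: `S13/FreyAtTwo.nodeShape`; at an odd
prime dividing `ab` as well).  For `σ` in the inertia group of `A` and `m` ODD with `v m = 1`:

* `inE0_smul_sub` : `σ • Q - Q ∈ E₀` for every `Q` with `m • Q = 0`;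
* `smul_eq_of_inE0` : `σ • Q = Q` for every `Q ∈ E₀` with `m • Q = 0`.
-/
import Mathlib
import Fermat.Prelude.Def_FLTPrelim_GaloisRep
import Fermat.Prelude.Def_FLTPrelim_Ramification
import Fermat.Agent.S05.Inertia
import Fermat.Agent.S13.Local2
import Fermat.Agent.MS.LOC.NodeUnip2

set_option autoImplicit false

open WeierstrassCurve WeierstrassCurve.Affine WeierstrassCurve.Affine.Point

namespace Fermat.Agent.MS.LOC.NodeUnipQ2

open Fermat.Agent.S13.Node Fermat.Agent.MS.LOC.NodeUnip2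

local notation "Qbar" => AlgebraicClosure ℚ

variable (E : Affine ℚ) {A : ValuationSubring Qbar}

/-- **(σ − 1) E[m] ⊆ E₀** for `σ` in the inertia group at a node-shape place, `m` odd. -/
theorem inE0_smul_sub (hW : NodeShape A.valuation (E⁄Qbar)) {σ : Qbar ≃ₐ[ℚ] Qbar}
    (hσ : σ ∈ A.inertiaSubgroupIn ℚ) {m : ℕ} (hm : Odd m) (Q : (E⁄Qbar).Point)
    (hQ : m • Q = 0) : InE0 A.valuation (σ • Q - Q) := by
  obtain ⟨α, β, hr⟩ := Fermat.Agent.S13.Local2.exists_roots (E⁄Qbar)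
  have hσv : ∀ z, A.valuation ((σ : Qbar →+* Qbar) z) = A.valuation z :=
    fun x => S05.Inertia.valuation_apply_rat hσ x
  have hσr : ∀ z, A.valuation z ≤ 1 → A.valuation ((σ : Qbar →+* Qbar) z - z) < 1 :=
    fun _ hx => S05.Inertia.valuation_sub_lt_one_rat hσ hx
  rcases Q with _ | ⟨x₀, y₀, h₀⟩
  · show InE0 A.valuation ((0 : (E⁄Qbar).Point) - 0)
    rw [sub_zero]; exact inE0_zero
  · have h₀' : (E⁄Qbar).Nonsingular (σ x₀) (σ y₀) :=
      (Affine.baseChange_nonsingular (W := E) (f := σ.toAlgHom)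
        σ.toAlgHom.injective x₀ y₀).mpr h₀
    have hs : σ • (Point.some x₀ y₀ h₀ : (E⁄Qbar).Point) =
        Point.some (σ x₀) (σ y₀) h₀' := rfl
    rw [hs]
    exact inE0_sigma_sub_of_odd_torsion hW hr (σ : Qbar →+* Qbar) hσv hσr hm h₀ h₀' hQ

/-- **σ = 1 on E₀ ∩ E[m]**, `v m = 1`. -/
theorem smul_eq_of_inE0 (hW : NodeShape A.valuation (E⁄Qbar)) {σ : Qbar ≃ₐ[ℚ] Qbar}
    (hσ : σ ∈ A.inertiaSubgroupIn ℚ) {m : ℕ} (hmv : A.valuation ((m : ℕ) : Qbar) = 1)
    (Q : (E⁄Qbar).Point) (hQ : m • Q = 0) (hE0 : InE0 A.valuation Q) : σ • Q = Q := by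
  have hσr : ∀ z, A.valuation z ≤ 1 → A.valuation ((σ : Qbar →+* Qbar) z - z) < 1 :=
    fun _ hx => S05.Inertia.valuation_sub_lt_one_rat hσ hx
  have hσQ : m • (σ • Q) = 0 := by
    have := Point.algEquiv_smul_zsmul σ (m : ℤ) Q
    rw [natCast_zsmul, natCast_zsmul] at this
    rw [← this, hQ]
    rfl
  rcases Q with _ | ⟨x₀, y₀, h₀⟩
  · rfl
  · have h₀' : (E⁄Qbar).Nonsingular (σ x₀) (σ y₀) :=
      (Affine.baseChange_nonsingular (W := E) (f := σ.toAlgHom)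
        σ.toAlgHom.injective x₀ y₀).mpr h₀
    have hs : σ • (Point.some x₀ y₀ h₀ : (E⁄Qbar).Point) =
        Point.some (σ x₀) (σ y₀) h₀' := rfl
    rw [hs] at hσQ ⊢
    obtain ⟨e1, e2⟩ := fixed_of_inE0' hW (σ : Qbar →+* Qbar) hσr hmv h₀ h₀' hQ hσQ hE0
    have e1' : σ x₀ = x₀ := e1
    have e2' : σ y₀ = y₀ := e2
    simp only [e1', e2']

end Fermat.Agent.MS.LOC.NodeUnipQ2
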