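/-
Programme MS (S12), area LOC (helper5): **unipotence of inertia on the odd torsion of the Frey curve at every
bad prime**, in the `InZeroComponentAt` form: for `q ∣ abc`, `A | q`, `σ` in the inertia group of `A`, `m` odd
and `m • x = 0`:  `P.freyCurveInt.InZeroComponentAt A (σ • x - x)`.

* `q = 2` : the Frey model itself is in node shape (`S13/FreyAtTwo.nodeShape`), helper2's
  `NodeUnipQ2.inE0_smul_sub` and the bridge `NodeBridge5.inZero_of_inE0`;
* `q` odd : the S05 transport `(x, y) ↦ (4x - t, 8y + 4x)` to `Wab a b : Y² = X³ + aX² + bX` (`t = 0` if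
  `q ∣ ab`, `t = a^p` if `q ∣ c`), which is in node shape, `NodeUnip2.inE0_sigma_sub_of_odd_torsion` and the
  bridge `NodeBridge5.inZero_of_inE0_vc`.

* `inE0_pointEquiv_smul_sub` : `(σ - 1) E[m] ⊆ E₀` through a `σ`-invariant change of variables;
* `nodeShape_Wab`;
* **`frey_unip`**.
-/
import Mathlib
import Fermat.Agent.MS.LOC.NodeBridge5
import Fermat.Agent.MS.LOC.NodeUnipQ2
import Fermat.Agent.MS.LOC.FreyInt2
import Fermat.Agent.S05.FreyTransport
import Fermat.Agent.S05.FreyArith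
import Fermat.Agent.S05.Assembly
import Fermat.Agent.S13.FreyAtTwo
import Fermat.Agent.S13.Local2

set_option autoImplicit false
set_option linter.unusedSectionVars false
set_option linter.style.longLine false

open WeierstrassCurve WeierstrassCurve.Affine

namespace Fermat.Agent.MS.LOC.FreyUnip5

open Fermat.Agent.S05 Fermat.Agent.S05.Transport Fermat.Agent.S05.FreyTransport
open Fermat.Agent.S05.Inertia Fermat.Agent.S13.Node
open Fermat.Agent.MS.LOC.NodeBridge5 Fermat.Agent.MS.LOC.NodeUnip2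

local notation "Qb" => AlgebraicClosure ℚ
local notation "GQ" => (AlgebraicClosure ℚ ≃ₐ[ℚ] AlgebraicClosure ℚ)

/-- **`(σ - 1) E[m] ⊆ E₀`** through a `σ`-invariant change of variables to a node-shape model. -/
theorem inE0_pointEquiv_smul_sub (E : WeierstrassCurve ℚ) {A : ValuationSubring Qb}
    {W₂ : WeierstrassCurve Qb} {C : VariableChange Qb} (h : E.baseChange Qb = C • W₂)
    (hW₂ : NodeShape A.valuation W₂.toAffine) {σ : GQ} (hσ : σ ∈ A.inertiaSubgroupIn ℚ)
    (hσu : σ (C.u : Qb) = C.u) (hσr : σ C.r = C.r) (hσs : σ C.s = C.s) (hσt : σ C.t = C.t)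
    {m : ℕ} (hm : Odd m) (x : (E⁄Qb).Point) (hx : m • x = 0) :
    InE0 A.valuation (pointEquiv h (σ • x - x)) := by
  obtain ⟨α, β, hr⟩ := Fermat.Agent.S13.Local2.exists_roots W₂.toAffine
  have hσv : ∀ z, A.valuation ((σ : Qb →+* Qb) z) = A.valuation z :=
    fun z => valuation_apply_rat hσ z
  have hσr' : ∀ z, A.valuation z ≤ 1 → A.valuation ((σ : Qb →+* Qb) z - z) < 1 :=
    fun _ hz => valuation_sub_lt_one_rat hσ hz
  rcases x with _ | ⟨x₀, y₀, h₀⟩
  · have h0 : σ • (Point.zero : (E⁄Qb).Point) - Point.zero = 0 :=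
      sub_self (Point.zero : (E⁄Qb).Point)
    rw [h0, map_zero]
    exact inE0_zero
  · have h₀' : (E⁄Qb).Nonsingular (σ x₀) (σ y₀) :=
      (Affine.baseChange_nonsingular (W := E) (f := σ.toAlgHom)
        σ.toAlgHom.injective x₀ y₀).mpr h₀
    have hs : σ • (Point.some x₀ y₀ h₀ : (E⁄Qb).Point) = Point.some (σ x₀) (σ y₀) h₀' := rfl
    rw [map_sub, hs, Fermat.Agent.S05.Transport.pointEquiv_some,
      Fermat.Agent.S05.Transport.pointEquiv_some]
    have hX : vcX C (σ x₀) = σ (vcX C x₀) := by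
      simp only [vcX, map_add, map_mul, map_pow, hσu, hσr]
    have hY : vcY C (σ x₀) (σ y₀) = σ (vcY C x₀ y₀) := by
      simp only [vcY, map_add, map_mul, map_pow, hσu, hσs, hσt]
    have key : ∀ (X' Y' : Qb) (_ : vcX C (σ x₀) = X') (_ : vcY C (σ x₀) (σ y₀) = Y')
        (h' : W₂.toAffine.Nonsingular (vcX C (σ x₀)) (vcY C (σ x₀) (σ y₀))),
        ∃ h'' : W₂.toAffine.Nonsingular X' Y',
          (Point.some _ _ h' : W₂.toAffine.Point) = Point.some X' Y' h'' := by
      rintro X' Y' rfl rfl h'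
      exact ⟨h', rfl⟩
    obtain ⟨h3, e3⟩ := key _ _ hX hY ((nonsingular_iff_vc h _ _).mpr h₀')
    rw [e3]
    have hmP : m • (Point.some _ _ ((nonsingular_iff_vc h x₀ y₀).mpr h₀) : W₂.toAffine.Point) = 0 := by
      rw [← Fermat.Agent.S05.Transport.pointEquiv_some h h₀, ← map_nsmul, hx, map_zero]
    exact inE0_sigma_sub_of_odd_torsion hW₂ hr (σ : Qb →+* Qb) hσv hσr' hm _ h3 hmP

/-- `Y² = X³ + aX² + bX` is in node shape when `a` is a unit, `0 < v b < 1` and `2` is a unit. -/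
theorem nodeShape_Wab {A : ValuationSubring Qb} (h2 : A.valuation (2 : Qb) = 1) {a b : Qb}
    (ha : A.valuation a = 1) (hb : A.valuation b < 1) (hb0 : b ≠ 0) :
    NodeShape A.valuation (Wab a b).toAffine where
  a₃ := rfl
  a₆ := rfl
  a₁ := by
    rw [Wab_a₁, map_zero]
    exact zero_le_one
  a₂ := by rw [Wab_a₂, ha]
  a₄ := by
    rw [Wab_a₄]
    exact hb
  a₄0 := by
    rw [Wab_a₄]
    exact hb0
  b₂ := by
    have hb₂ : (Wab a b).b₂ = 2 * 2 * a := by
      simp only [WeierstrassCurve.b₂, Wab_a₁, Wab_a₂]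
      ring
    rw [hb₂, map_mul, map_mul, h2, ha, mul_one, mul_one]

/-- **unipotence of inertia on the odd torsion of the Frey curve at a bad prime.** -/
theorem frey_unip (P : FreyPackage) {q : ℕ} (hq : q.Prime) (hbad : (q : ℤ) ∣ P.a * P.b * P.c)
    {A : ValuationSubring Qb} (hA : A.LiesOverPrime q) {σ : GQ} (hσ : σ ∈ A.inertiaSubgroupIn ℚ)
    {m : ℕ} (hm : Odd m) (x : ((P.freyCurveInt.map (Int.castRingHom ℚ))⁄Qb).Point)
    (hx : m • x = 0) : P.freyCurveInt.InZeroComponentAt A (σ • x - x) := by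
  have e := Fermat.Agent.MS.LOC.FreyInt2.map_freyCurveInt P
  by_cases hq2 : q = 2
  · subst hq2
    have hW : NodeShape A.valuation ((P.freyCurveInt.map (Int.castRingHom ℚ))⁄Qb) := by
      rw [e]
      exact Fermat.Agent.S13.FreyAtTwo.nodeShape P hA
    exact inZero_of_inE0 _ A hW _
      (Fermat.Agent.MS.LOC.NodeUnipQ2.inE0_smul_sub _ hW hσ hm x hx)
  · have hv := Fermat.Agent.S05.Assembly.liesOver hq hA
    have h2 : A.valuation (2 : Qb) = 1 := valuation_two_eq_one hq hA hq2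
    have hcA : (cA P : Qb) = (P.a : Qb) ^ P.p := rfl
    have hcB : (cB P : Qb) = (P.b : Qb) ^ P.p := rfl
    -- the generic finishing step
    have fin : ∀ (t a b : Qb), t * (t - cA P) * (t + cB P) = 0 → a = 3 * t + cB P - cA P →
        b = 3 * t ^ 2 + 2 * (cB P - cA P) * t - cA P * cB P → σ t = t → A.valuation t ≤ 1 →
        A.valuation a = 1 → A.valuation b < 1 → b ≠ 0 →
        P.freyCurveInt.InZeroComponentAt A (σ • x - x) := by
      intro t a b ht ha hb hσt hvt hva hvb hb0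
      have h : (P.freyCurveInt.map (Int.castRingHom ℚ)).baseChange Qb = vc t • Wab a b := by
        rw [e]
        exact freyCurve_baseChange_eq P ht ha hb
      have hW₂ := nodeShape_Wab h2 hva hvb hb0
      have hu : ((vc t).u : Qb) = 2 := rfl
      have hr : (vc t).r = -t := rfl
      have hs : (vc t).s = 1 := rfl
      have ht' : (vc t).t = 0 := rfl
      refine inZero_of_inE0_vc _ A h hW₂ ?_ ?_ ?_ _
        (inE0_pointEquiv_smul_sub _ h hW₂ hσ ?_ ?_ ?_ ?_ hm x hx)
      · rw [hu, h2]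
      · rw [hr, Valuation.map_neg]
        exact hvt
      · rw [hs, map_one]
      · rw [hu, map_ofNat]
      · rw [hr, map_neg, hσt]
      · rw [hs, map_one]
      · rw [ht', map_zero]
    have hpi := Fermat.Agent.S05.FreyArith.prime_int hq
    rcases hpi.dvd_or_dvd hbad with hab | hc
    · -- `q ∣ ab`
      obtain ⟨g1, g2, g3⟩ := Fermat.Agent.S05.FreyArith.mult_ab_val P hv hq hab
      refine fin 0 ((P.b : Qb) ^ P.p - (P.a : Qb) ^ P.p)
        (-((P.a : Qb) ^ P.p * (P.b : Qb) ^ P.p)) (by ring) (by rw [hcA, hcB]; ring)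
        (by rw [hcA, hcB]; ring) (map_zero σ) (by rw [map_zero]; exact zero_le_one) g1 ?_ ?_
      · rw [g2]
        exact pow_lt_one₀ zero_le g3 P.hp0
      · rw [← mul_pow]
        exact neg_ne_zero.mpr (pow_ne_zero _ (Fermat.Agent.S05.FreyArith.ab_ne_zero P))
    · -- `q ∣ c`
      have hcc : (P.c : Qb) ^ P.p = (P.a : Qb) ^ P.p + (P.b : Qb) ^ P.p :=
        Fermat.Agent.S05.FreyArith.c_pow_eq_cast P
      obtain ⟨g1, g2, g3⟩ := Fermat.Agent.S05.FreyArith.mult_c_val P hv hq hc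
      refine fin ((P.a : Qb) ^ P.p) ((P.a : Qb) ^ P.p + (P.c : Qb) ^ P.p)
        ((P.a : Qb) ^ P.p * (P.c : Qb) ^ P.p) (by rw [hcA]; ring) (by rw [hcA, hcB, hcc]; ring)
        (by rw [hcA, hcB, hcc]; ring) (by simp) ?_ g1 ?_ ?_
      · have := valuation_intCast_le_one (A := A) (P.a ^ P.p)
        simpa using this
      · rw [g2]
        exact pow_lt_one₀ zero_le g3 P.hp0
      · rw [← mul_pow]
        exact pow_ne_zero _ (Fermat.Agent.S05.FreyArith.ac_ne_zero P)

end Fermat.Agent.MS.LOC.FreyUnip5
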