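/-
Programme MS (S12), area LOC (helper5): **(L1) `UnramProp`**: for a semistable integral model `W`, `p ≥ 5`,
and `D : Cof (QC W) p k` (`k ≥ 1`) lying in the zero component at every bad place away from `p`, the
extension `p⁻¹K / K` is unramified outside `p`.

* `unram_step` : the local statement at a multiplicative place `A | ℓ`, `ℓ ≠ p`: for `σ` in the inertia
  group of `A` acting trivially on `E[p] / (E[p] ∩ K)` and `K ⊆ E[p^k] ∩ E⁰_A`: `p • x ∈ K ⟹ σ • x - x ∈ K`.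
  (Write `x = h + y` with `h ∈ Can_A(p^(k+1))`, `p • y = 0`; inertia fixes `h` by
  `InertiaZero5.inertia_fix_of_inZero`.)
* **`unramProp`** : `Assemble8.UnramProp W p` for every semistable `W` with `W.Δ ≠ 0`, `5 ≤ p`;
* **`unramProp_frey`** : `UnramProp P.freyCurveInt P.p`.
-/
import Mathlib
import Fermat.Agent.MS.LOC.InertiaZero5
import Fermat.Agent.MS.LOC.CanP5
import Fermat.Agent.MS.STEP.Assemble8

set_option autoImplicit false
set_option linter.unusedSectionVars false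
set_option linter.style.longLine false

open WeierstrassCurve WeierstrassCurve.Affine

namespace Fermat.Agent.MS.LOC.UnramProp5

open Fermat.Agent.MS.LOC.CanStruct5 Fermat.Agent.MS.LOC.InertiaZero5
open Fermat.Agent.MS.STEP.StepAlg8 Fermat.Agent.MS.STEP.CofStep8 Fermat.Agent.MS.STEP.Assemble8

local notation "Qb" => AlgebraicClosure ℚ
local notation "GQ" => (AlgebraicClosure ℚ ≃ₐ[ℚ] AlgebraicClosure ℚ)

theorem coprime_pow_six {p : ℕ} (hp : p.Prime) (h5 : 5 ≤ p) (j : ℕ) : Nat.Coprime (p ^ j) 6 := by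
  apply Nat.Coprime.pow_left
  have h2 : Nat.Coprime p 2 := (Nat.coprime_primes hp Nat.prime_two).mpr (by omega)
  have h3 : Nat.Coprime p 3 := (Nat.coprime_primes hp Nat.prime_three).mpr (by omega)
  exact Nat.Coprime.mul_right h2 h3

theorem not_dvd_pow {ℓ p : ℕ} (hℓ : ℓ.Prime) (hp : p.Prime) (hℓp : ℓ ≠ p) (j : ℕ) : ¬ ℓ ∣ p ^ j :=
  fun hd => hℓp ((Nat.prime_dvd_prime_iff_eq hℓ hp).mp (hℓ.dvd_of_dvd_pow hd))

/-- **the local statement of (L1) at a multiplicative place.** -/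
theorem unram_step (W : WeierstrassCurve ℤ) (hΔ0 : W.Δ ≠ 0) {ℓ p : ℕ} (hℓ : ℓ.Prime) (hp : p.Prime)
    (h5 : 5 ≤ p) (hℓp : ℓ ≠ p) (hℓΔ : (ℓ : ℤ) ∣ W.Δ) (hℓc₄ : ¬ (ℓ : ℤ) ∣ W.c₄)
    {A : ValuationSubring Qb} (hA : A.LiesOverPrime ℓ) (k : ℕ)
    (K : AddSubgroup ((W.map (Int.castRingHom ℚ))⁄Qb).Point)
    (hKtors : ∀ x ∈ K, p ^ k • x = 0) (hKz : ∀ x ∈ K, W.InZeroComponentAt A x)
    {σ : GQ} (hσ : σ ∈ A.inertiaSubgroupIn ℚ)
    (hcof : ∀ y : ((W.map (Int.castRingHom ℚ))⁄Qb).Point, p • y = 0 → σ • y - y ∈ K)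
    (x : ((W.map (Int.castRingHom ℚ))⁄Qb).Point) (hx : p • x ∈ K) : σ • x - x ∈ K := by
  haveI : NeZero (p ^ (k + 1)) := ⟨pow_ne_zero _ hp.ne_zero⟩
  obtain ⟨T⟩ := Fermat.Agent.MS.LOC.CanP5.nonempty_torsParam_of_mult_gen hℓ W hΔ0 hℓΔ hℓc₄ A hA
    (p ^ (k + 1)) (coprime_pow_six hp h5 _)
  have hxt : p ^ (k + 1) • x = 0 := by
    rw [pow_succ, mul_nsmul']
    exact hKtors _ hx
  obtain ⟨⟨a, b⟩, hs⟩ := T.surj x hxt
  -- the component of `p • x` vanishes
  have hpb : p • b = 0 := by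
    have h1 : W.InZeroComponentAt A (T.ψ (p • ((a, b) : ZMod (p ^ (k + 1)) × ZMod (p ^ (k + 1))))) := by
      rw [map_nsmul, hs]
      exact hKz _ hx
    exact (T.zero_iff _).mp h1
  set h : ((W.map (Int.castRingHom ℚ))⁄Qb).Point := T.ψ (a, 0) with hh
  set y : ((W.map (Int.castRingHom ℚ))⁄Qb).Point := T.ψ (0, b) with hy
  have hxe : x = h + y := by
    rw [hh, hy, ← map_add, ← hs]
    congr 1
    ext
    · show a = a + 0
      rw [add_zero]
    · show b = 0 + b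
      rw [zero_add]
  have hpy : p • y = 0 := by
    rw [hy, ← map_nsmul]
    have : p • ((0, b) : ZMod (p ^ (k + 1)) × ZMod (p ^ (k + 1))) = 0 := by
      ext
      · show p • (0 : ZMod (p ^ (k + 1))) = 0
        rw [smul_zero]
      · exact hpb
    rw [this, map_zero]
  have hσh : σ • h = h :=
    inertia_fix_of_inZero W hℓ (not_dvd_pow hℓ hp hℓp (k + 1)) hA hσ h (T.tors _)
      ((T.zero_iff _).mpr rfl)
  have e : σ • (h + y) = σ • h + σ • y := smul_add σ h y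
  have : σ • x - x = σ • y - y := by
    rw [hxe, e, hσh]
    abel
  rw [this]
  exact hcof y hpy

variable {p : ℕ} [hpF : Fact p.Prime]

/-- **(L1)** for a semistable integral model. -/
theorem unramProp (W : WeierstrassCurve ℤ) (hΔ0 : W.Δ ≠ 0) (hss : W.IsSemistableModel) (h5 : 5 ≤ p) :
    UnramProp W p := by
  have hp : p.Prime := hpF.out
  intro k D hk hcan ℓ hℓ hℓp A hA σ hσ x hx
  by_cases hℓΔ : (ℓ : ℤ) ∣ W.Δ
  · -- multiplicative place
    refine unram_step W hΔ0 hℓ hp h5 hℓp hℓΔ (hss ℓ hℓ hℓΔ) hA k D.K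
      (fun z hz => mem_tors.1 (D.K_le_tors hz)) (hcan ℓ hℓ hℓp hℓΔ A hA) hσ ?_ x hx
    intro y hy
    refine D.cofix σ y ?_
    obtain ⟨j, rfl⟩ := Nat.exists_eq_add_of_le hk
    rw [pow_add, pow_one, mul_comm p (p ^ j), mul_nsmul', hy]
    exact nsmul_zero _
  · -- good place
    have hxt : p ^ (k + 1) • x = 0 := by
      rw [pow_succ, mul_nsmul']
      exact mem_tors.1 (D.K_le_tors hx)
    have hodd : Odd (p ^ (k + 1)) := (hp.odd_of_ne_two (by omega)).pow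
    have hfix : σ • x = x :=
      inertia_fix_good W hℓ hℓΔ hodd (not_dvd_pow hℓ hp hℓp (k + 1)) hA hσ x hxt
    rw [hfix, sub_self]
    exact D.K.zero_mem

/-- **(L1)** for the Frey curve. -/
theorem unramProp_frey (P : FreyPackage) : UnramProp P.freyCurveInt P.p :=
  unramProp P.freyCurveInt (Fermat.Agent.MS.LOC.FreyInt2.Δ_ne_zero P)
    (Fermat.Agent.MS.LOC.FreyInt2.isSemistableModel P) P.hp5

end Fermat.Agent.MS.LOC.UnramProp5
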