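/-
Programme MS (S12), area LOC (helper5): **(L3) away from `p`: `ThetaOutProp`.**

For a semistable integral model `W` (`W.Δ ≠ 0`, `5 ≤ p`) on which inertia at the bad primes `q ≠ p` is
unipotent (`UnipProp W p`: `(σ - 1) E[p^j] ⊆ E⁰_A`), and a next subgroup `K' = D.next C'` lying in the zero
component at the bad places: the inertia groups at `q ≠ p` act trivially on `E[p^(k+1)] / K'`.

* good `q` : inertia fixes `E[p^(k+1)]` (`InertiaZero5.inertia_fix_good`);
* bad `q` : `(σ - 1) x ∈ E⁰_A ∩ E[p^(k+1)] = Can_A(p^(k+1)) = K'` (equal cardinalities `p^(k+1)`).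

* `UnipProp`, **`thetaOutProp`**, `unipProp_frey`, **`thetaOutProp_frey`**.
-/
import Mathlib
import Fermat.Agent.MS.LOC.FreyUnip5
import Fermat.Agent.MS.LOC.UnramProp5

set_option autoImplicit false
set_option linter.unusedSectionVars false
set_option linter.style.longLine false

open WeierstrassCurve WeierstrassCurve.Affine

namespace Fermat.Agent.MS.LOC.ThetaOut5

open Fermat.Agent.MS.LOC.CanStruct5 Fermat.Agent.MS.LOC.InertiaZero5 Fermat.Agent.MS.LOC.UnramProp5
open Fermat.Agent.MS.STEP.StepAlg8 Fermat.Agent.MS.STEP.CofStep8 Fermat.Agent.MS.STEP.Assemble8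

local notation "Qb" => AlgebraicClosure ℚ
local notation "GQ" => (AlgebraicClosure ℚ ≃ₐ[ℚ] AlgebraicClosure ℚ)

/-- inertia at the bad primes away from `p` is unipotent on the `p`-power torsion, in the
`InZeroComponentAt` form. -/
def UnipProp (W : WeierstrassCurve ℤ) (p : ℕ) : Prop :=
  ∀ q : ℕ, q.Prime → q ≠ p → (q : ℤ) ∣ W.Δ → ∀ A : ValuationSubring Qb, A.LiesOverPrime q →
    ∀ σ ∈ A.inertiaSubgroupIn ℚ, ∀ (j : ℕ) (x : ((W.map (Int.castRingHom ℚ))⁄Qb).Point),
      p ^ j • x = 0 → W.InZeroComponentAt A (σ • x - x)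

/-- the discriminant of the base change of an integral model. -/
theorem baseChange_Δ_ne_zero (W : WeierstrassCurve ℤ) (hΔ0 : W.Δ ≠ 0) :
    ((W.map (Int.castRingHom ℚ))⁄Qb).Δ ≠ 0 := by
  have hV : ((W.map (Int.castRingHom ℚ))⁄Qb) = (W.map (Int.castRingHom Qb)).toAffine :=
    Fermat.Agent.ES.EC.TorsionLift20.baseChange_eq_map W
  rw [hV]
  show (W.map (Int.castRingHom Qb)).Δ ≠ 0
  rw [WeierstrassCurve.map_Δ, eq_intCast]
  exact_mod_cast hΔ0

variable {p : ℕ} [hpF : Fact p.Prime]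

/-- **(L3) away from `p`**, from unipotence. -/
theorem thetaOutProp (W : WeierstrassCurve ℤ) (hΔ0 : W.Δ ≠ 0) (hss : W.IsSemistableModel)
    (h5 : 5 ≤ p) (hU : UnipProp W p) : ThetaOutProp W p := by
  have hp : p.Prime := hpF.out
  have h3 : 3 ≤ p := by omega
  have hΔ := baseChange_Δ_ne_zero W hΔ0
  intro k D hk C' hC' hcompl hcan' q hq hqp A hA σ hσ x hx
  have hodd : Odd (p ^ (k + 1)) := (hp.odd_of_ne_two (by omega)).pow
  by_cases hqΔ : (q : ℤ) ∣ W.Δ
  · -- bad place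
    haveI : NeZero (p ^ (k + 1)) := ⟨pow_ne_zero _ hp.ne_zero⟩
    obtain ⟨T⟩ := Fermat.Agent.MS.LOC.CanP5.nonempty_torsParam_of_mult_gen hq W hΔ0 hqΔ
      (hss q hq hqΔ) A hA (p ^ (k + 1)) (coprime_pow_six hp h5 _)
    -- `K' ⊆ Can`
    have hle : D.next C' ≤ T.can := fun z hz =>
      (T.mem_can_iff z).mpr ⟨mem_tors.1 (D.next_le_tors C' hz), hcan' q hq hqp hqΔ A hA z hz⟩
    have hcardN : Nat.card ↥(D.next C') = p ^ (k + 1) :=
      D.card_next (card_tors_pG (W.map (Int.castRingHom ℚ)) p hΔ h3)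
        (exists_div_of_mem_KG hΔ h3 D) C' hp hk hcompl
    haveI : Finite ↥T.can :=
      Nat.finite_of_card_ne_zero (by rw [T.card_can]; exact pow_ne_zero _ hp.ne_zero)
    have heq : D.next C' = T.can :=
      AddSubgroup.eq_of_le_of_card_ge hle (by rw [hcardN, T.card_can])
    rw [heq, T.mem_can_iff]
    refine ⟨?_, hU q hq hqp hqΔ A hA σ hσ (k + 1) x hx⟩
    have e : σ • (p ^ (k + 1) • x) = p ^ (k + 1) • (σ • x) := gsmul_nsmul σ (p ^ (k + 1)) x
    have e0 : σ • (0 : ((W.map (Int.castRingHom ℚ))⁄Qb).Point) = 0 := rfl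
    rw [nsmul_sub, ← e, hx, sub_zero]
    exact e0
  · -- good place
    have hfix : σ • x = x :=
      inertia_fix_good W hq hqΔ hodd (not_dvd_pow hq hp hqp (k + 1)) hA hσ x hx
    rw [hfix, sub_self]
    exact (D.next C').zero_mem

/-- unipotence for the Frey curve. -/
theorem unipProp_frey (P : FreyPackage) : UnipProp P.freyCurveInt P.p := by
  intro q hq _ hqΔ A hA σ hσ j x hx
  exact Fermat.Agent.MS.LOC.FreyUnip5.frey_unip P hq
    ((Fermat.Agent.MS.LOC.FreyInt2.dvd_Δ_iff P hq).mp hqΔ) hA hσ (P.hp_odd.pow (n := j)) x hx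

/-- **(L3) away from `p`** for the Frey curve. -/
theorem thetaOutProp_frey (P : FreyPackage) : ThetaOutProp P.freyCurveInt P.p :=
  thetaOutProp P.freyCurveInt (Fermat.Agent.MS.LOC.FreyInt2.Δ_ne_zero P)
    (Fermat.Agent.MS.LOC.FreyInt2.isSemistableModel P) P.hp5 (unipProp_frey P)

end Fermat.Agent.MS.LOC.ThetaOut5
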